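import Fermat.Agent.S43.Rho.Props.TypeRhoT

/-!
# PROJECT R (S43), block L1: `ρ_T` IS UNIPOTENT ON INERTIA AT `2` (RESIDUALLY RAMIFIED CASE)

`Rho/Props/TypeRhoT.isUnipotentOnInertiaAt_ofMat` (helper4) and `RSide/LocalMat.conj_eq_pow`
(helper25) assume `hres : ∀ s ∈ I_A, ρ s ≡ 1 mod 𝔪_T` (the residual representation is unramified at
`l`).  At `l = 2` the Frey residual representation is a NON-TRIVIAL unipotent on inertia
(`Rbar`'s `hram2`, `hunip2`), so `hres` is false there.  The hypothesis `hres` is used at one place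
only: the image of the inertia group at a finite level is a `p`-group.  This holds as soon as

  `hresP : ∀ s ∈ I_A, ∃ k, ρ s ^ (p ^ k) ≡ 1 mod 𝔪_T`

(`k = 0` is `hres`; `k = 1` holds when `(ρ̄ s - 1)² = 0`, residue characteristic `p`).  This file
re-runs the three levels of `RSide/LocalMat` and the packaging of `Rho/Props/Type*` under `hresP`.

* `pow_sub_one_cong_of_sq` : `(g - 1)² ≡ 0 mod 𝔪` implies `g ^ p ≡ 1 mod 𝔪` ;
* `isPGroup_range_of_pcong`, `level_conj_pow_of_pcong`, `push_conj_pow_of_pcong`,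
  `map_conj_eq_pow_of_pcong`, **`conj_eq_pow_of_pcong`** : the tame relation `Φ Σ = Σ ^ l Φ` ;
* `t_eq_of_gate_of_pcong`, `charpoly_rep_of_gate_of_pcong`, `charpoly_ofMat_of_gate_of_pcong` ;
* **`isUnipotentOnInertiaAt_ofMat_of_pcong`** : the Prelude's `IsUnipotentOnInertiaAt l` for
  `ofMat (CH.rep h) hcont` from `hresP`, `d = 1` on inertia and the cubic `(r τ - 1)³ = 0` ;
* `cong_sq_of_residual`, `pcong_of_residual` : `hresP` (with `k = 1`) from the residual equality of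
  `Rho/ExistsNorm` and `(ρ̄ s - 1)² = 0` ;
* **`isUnipotentOnInertiaAt_ofMat_of_residual`** : the two together.
-/

set_option autoImplicit false

noncomputable section

namespace Fermat.Agent.S43.Rho.Props.UnipTwo

open Matrix Polynomial IsLocalRing
open Fermat.Agent.S43.Rho.CH
open Fermat.Agent.S53.Dictionary (IsContMat ofMat mapMat resMatOf)
open Fermat.Agent.CFT.Bridge Fermat.Agent.S43.RSide.LocalMat

/-! ### PART A : matrices of residual `p`-power order -/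

section PartA

variable {E : Type*} [CommRing E] [IsLocalRing E] {p : ℕ}

/-- **`(g - 1)² ≡ 0` implies `g ^ p ≡ 1`** modulo the maximal ideal, when `p` lies in it -/
theorem pow_sub_one_cong_of_sq (hp : p.Prime) (hpE : (p : E) ∈ maximalIdeal E)
    {g : Matrix (Fin 2) (Fin 2) E} (hg : Cong (maximalIdeal E) ((g - 1) * (g - 1))) :
    Cong (maximalIdeal E) (g ^ p - 1) := by
  set x := g - 1 with hx
  have hgx : g = 1 + x := by rw [hx]; abel
  obtain ⟨r, hr⟩ := (Commute.one_left x).exists_add_pow_prime_eq hp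
  have h1 : g ^ p - 1 = x ^ p + (p : E) • (x * r) := by
    rw [hgx, hr, one_pow, mul_one]
    have : ((p : ℕ) : Matrix (Fin 2) (Fin 2) E) * x * r = (p : E) • (x * r) := by
      rw [mul_assoc, ← nsmul_eq_mul, Nat.cast_smul_eq_nsmul]
    rw [this]
    abel
  rw [h1]
  apply Cong.add
  · obtain ⟨m, rfl⟩ : ∃ m, p = m + 2 := ⟨p - 2, by have := hp.two_le; omega⟩
    have h2 : x ^ (m + 2) = x * x * x ^ m := by rw [add_comm, pow_add, pow_two]
    rw [h2]
    exact hg.mul_right _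
  · intro i j
    rw [Matrix.smul_apply, smul_eq_mul]
    exact Ideal.mul_mem_right _ _ hpE

/-- a matrix with a `p`-power congruent to `1` modulo the maximal ideal has `p`-power order when
`𝔪 ^ n = 0` -/
theorem pow_eq_one_of_pcong (hp : p.Prime) (hpE : (p : E) ∈ maximalIdeal E) {n : ℕ}
    (hnil : maximalIdeal E ^ n = ⊥) {g : Matrix (Fin 2) (Fin 2) E} {k : ℕ}
    (hg : Cong (maximalIdeal E) (g ^ (p ^ k) - 1)) : g ^ (p ^ (k + n)) = 1 := by
  rw [pow_add, pow_mul]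
  exact pow_prime_pow_eq_one hp hpE hnil hg

/-- **a group of matrices of residual `p`-power order is a `p`-group** -/
theorem isPGroup_range_of_pcong (hp : p.Prime) (hpE : (p : E) ∈ maximalIdeal E) {n : ℕ}
    (hnil : maximalIdeal E ^ n = ⊥) {I : Type*} [Group I]
    (f : I →* (Matrix (Fin 2) (Fin 2) E)ˣ)
    (hf : ∀ s, ∃ k : ℕ, Cong (maximalIdeal E) (((f s : (Matrix (Fin 2) (Fin 2) E)ˣ) :
      Matrix (Fin 2) (Fin 2) E) ^ (p ^ k) - 1)) : IsPGroup p f.range := by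
  rintro ⟨g, s, rfl⟩
  obtain ⟨k, hk⟩ := hf s
  refine ⟨k + n, ?_⟩
  apply Subtype.ext
  apply Units.ext
  rw [Subgroup.coe_pow, Units.val_pow_eq_pow_val]
  exact pow_eq_one_of_pcong hp hpE hnil hk

end PartA

/-! ### PART B : one finite level -/

section PartB

variable {E : Type} [CommRing E] [IsLocalRing E]

theorem isPGroup_range_inertiaHom_of_pcong {p : ℕ} (hp : p.Prime)
    (hpE : (p : E) ∈ maximalIdeal E) {n : ℕ} (hnil : maximalIdeal E ^ n = ⊥)
    (A : ValuationSubring Qbar) (ρ : GQ →* Matrix (Fin 2) (Fin 2) E)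
    (hres : ∀ s ∈ A.inertiaSubgroupIn ℚ, ∃ k : ℕ, Cong (maximalIdeal E) (ρ s ^ (p ^ k) - 1)) :
    IsPGroup p (inertiaHom A ρ).range :=
  isPGroup_range_of_pcong hp hpE hnil _ fun s => hres _ s.2

/-- **`ρ (φ τ φ⁻¹) = ρ τ ^ l`** at one finite level -/
theorem level_conj_pow_of_pcong {l p : ℕ} (hl : l.Prime) (hp : p.Prime) (hpl : p ≠ l)
    (hpE : (p : E) ∈ maximalIdeal E) {n : ℕ} (hnil : maximalIdeal E ^ n = ⊥)
    {A : ValuationSubring Qbar} (hA : A.LiesOverPrime l)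
    (ρ : GQ →* Matrix (Fin 2) (Fin 2) E)
    (L : IntermediateField ℚ Qbar) [FiniteDimensional ℚ L]
    (hL : ∀ σ : GQ, (∀ x ∈ L, σ x = x) → ρ σ = 1)
    (hres : ∀ s ∈ A.inertiaSubgroupIn ℚ, ∃ k : ℕ, Cong (maximalIdeal E) (ρ s ^ (p ^ k) - 1))
    {φ : GQ} (hφ : A.IsFrobeniusAt φ l) {τ : GQ} (hτ : τ ∈ A.inertiaSubgroupIn ℚ) :
    ρ (φ * τ * φ⁻¹) = ρ τ ^ l := by
  have h1 := Fermat.Agent.S56.Tame.map_conj_eq_pow (galLevel L) hl hA hp hpl (inertiaHom A ρ)
    (inertiaHom_factors A ρ L hL) (isPGroup_range_inertiaHom_of_pcong hp hpE hnil A ρ hres) hφ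
    ⟨τ, hτ⟩
  have h2 := congrArg (fun u : (Matrix (Fin 2) (Fin 2) E)ˣ => (u : Matrix (Fin 2) (Fin 2) E)) h1
  simpa only [coe_inertiaHom, Units.val_pow_eq_pow_val] using h2

end PartB

/-! ### PART C : the adically continuous matrix representation -/

section PartC

variable {T : Type} [CommRing T] [IsLocalRing T] {E : Type} [CommRing E] [IsLocalRing E]

/-- the push-forward keeps the residual `p`-power order on inertia -/
theorem push_pcong {p : ℕ} (ψ : T →+* E) (hψ : (maximalIdeal T).map ψ ≤ maximalIdeal E)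
    (A : ValuationSubring Qbar) (r : GQ →* Matrix (Fin 2) (Fin 2) T)
    (hres : ∀ s ∈ A.inertiaSubgroupIn ℚ, ∃ k : ℕ, Cong (maximalIdeal T) (r s ^ (p ^ k) - 1)) :
    ∀ s ∈ A.inertiaSubgroupIn ℚ, ∃ k : ℕ, Cong (maximalIdeal E) (push ψ r s ^ (p ^ k) - 1) := by
  intro s hs
  obtain ⟨k, hk⟩ := hres s hs
  refine ⟨k, ?_⟩
  have h2 := (hk.map ψ).mono hψ
  have h5 : (r s ^ (p ^ k) - 1).map ψ = (r s).map ψ ^ (p ^ k) - 1 := by
    rw [Matrix.map_sub (f := ψ) (fun a b => map_sub ψ a b), Matrix.map_one ψ (map_zero ψ)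
      (map_one ψ)]
    congr 1
    exact map_pow ψ.mapMatrix (r s) (p ^ k)
  rw [h5] at h2
  exact h2

/-- **`ρ (φ τ φ⁻¹) = ρ τ ^ l`** for the push-forward to a local ring with nilpotent maximal ideal -/
theorem push_conj_pow_of_pcong {l p : ℕ} (hl : l.Prime) (hp : p.Prime) (hpl : p ≠ l)
    (hpT : (p : T) ∈ maximalIdeal T) (ψ : T →+* E)
    (hψ : (maximalIdeal T).map ψ ≤ maximalIdeal E) {n : ℕ} (hnil : maximalIdeal E ^ n = ⊥)
    {A : ValuationSubring Qbar} (hA : A.LiesOverPrime l)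
    (r : GQ →* Matrix (Fin 2) (Fin 2) T) (hcont : AdicCont r)
    (hres : ∀ s ∈ A.inertiaSubgroupIn ℚ, ∃ k : ℕ, Cong (maximalIdeal T) (r s ^ (p ^ k) - 1))
    {φ : GQ} (hφ : A.IsFrobeniusAt φ l) {τ : GQ} (hτ : τ ∈ A.inertiaSubgroupIn ℚ) :
    (r (φ * τ * φ⁻¹)).map ψ = ((r τ).map ψ) ^ l := by
  obtain ⟨L, hLfin, hL⟩ := push_level ψ hψ hnil r hcont
  exact level_conj_pow_of_pcong hl hp hpl (natCast_mem_of_map_le ψ hψ hpT) hnil hA (push ψ r) L hL
    (push_pcong ψ hψ A r hres) hφ hτ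

/-- **the tame relation in `M₂(T)`** : `r (φ τ φ⁻¹) = r τ ^ l` -/
theorem map_conj_eq_pow_of_pcong {l p : ℕ} (hl : l.Prime) (hp : p.Prime) (hpl : p ≠ l)
    (hpT : (p : T) ∈ maximalIdeal T)
    (hsep : ∀ x : T, (∀ n, x ∈ maximalIdeal T ^ n) → x = 0)
    {A : ValuationSubring Qbar} (hA : A.LiesOverPrime l)
    (r : GQ →* Matrix (Fin 2) (Fin 2) T) (hcont : AdicCont r)
    (hres : ∀ s ∈ A.inertiaSubgroupIn ℚ, ∃ k : ℕ, Cong (maximalIdeal T) (r s ^ (p ^ k) - 1))
    {φ : GQ} (hφ : A.IsFrobeniusAt φ l) {τ : GQ} (hτ : τ ∈ A.inertiaSubgroupIn ℚ) :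
    r (φ * τ * φ⁻¹) = r τ ^ l := by
  apply eq_of_forall_map_mk hsep
  intro k
  have := isLocalRing_quot (T := T) k
  have h1 := push_conj_pow_of_pcong hl hp hpl hpT (Ideal.Quotient.mk (maximalIdeal T ^ (k + 1)))
    (map_mk_le k) (maximalIdeal_quot_pow k) hA r hcont hres hφ hτ
  rw [h1]
  exact (map_pow (Ideal.Quotient.mk (maximalIdeal T ^ (k + 1))).mapMatrix (r τ) l).symm

/-- **the tame relation, in the form `Φ Σ = Σ ^ l Φ`** (the literal of `LocalMat.conj_eq_pow`,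
under the weaker residual hypothesis) -/
theorem conj_eq_pow_of_pcong {l p : ℕ} (hl : l.Prime) (hp : p.Prime) (hpl : p ≠ l)
    (hpT : (p : T) ∈ maximalIdeal T)
    (hsep : ∀ x : T, (∀ n, x ∈ maximalIdeal T ^ n) → x = 0)
    {A : ValuationSubring Qbar} (hA : A.LiesOverPrime l)
    (r : GQ →* Matrix (Fin 2) (Fin 2) T) (hcont : AdicCont r)
    (hres : ∀ s ∈ A.inertiaSubgroupIn ℚ, ∃ k : ℕ, Cong (maximalIdeal T) (r s ^ (p ^ k) - 1))
    {φ : GQ} (hφ : A.IsFrobeniusAt φ l) {τ : GQ} (hτ : τ ∈ A.inertiaSubgroupIn ℚ) :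
    r φ * r τ = r τ ^ l * r φ := by
  rw [← map_conj_eq_pow_of_pcong hl hp hpl hpT hsep hA r hcont hres hφ hτ, ← map_mul, ← map_mul]
  congr 1
  group

/-- `hres` is the case `k = 0` -/
theorem pcong_of_cong {p : ℕ} {A : ValuationSubring Qbar} (r : GQ →* Matrix (Fin 2) (Fin 2) T)
    (hres : ∀ s ∈ A.inertiaSubgroupIn ℚ, Cong (maximalIdeal T) (r s - 1)) :
    ∀ s ∈ A.inertiaSubgroupIn ℚ, ∃ k : ℕ, Cong (maximalIdeal T) (r s ^ (p ^ k) - 1) :=
  fun s hs => ⟨0, by simpa using hres s hs⟩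

/-- `(r s - 1)² ≡ 0` on inertia is the case `k = 1` -/
theorem pcong_of_cong_sq {p : ℕ} (hp : p.Prime) (hpT : (p : T) ∈ maximalIdeal T)
    {A : ValuationSubring Qbar} (r : GQ →* Matrix (Fin 2) (Fin 2) T)
    (hres : ∀ s ∈ A.inertiaSubgroupIn ℚ, Cong (maximalIdeal T) ((r s - 1) * (r s - 1))) :
    ∀ s ∈ A.inertiaSubgroupIn ℚ, ∃ k : ℕ, Cong (maximalIdeal T) (r s ^ (p ^ k) - 1) :=
  fun s hs => ⟨1, by simpa using pow_sub_one_cong_of_sq hp hpT (hres s hs)⟩

end PartC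

/-! ### The inertial type from the gate, under `hresP` -/

section Gate

variable {T : Type} [CommRing T] [IsLocalRing T] [Invertible (2 : T)] {E : Type*} [Ring E]
  [Algebra T E] {r : GQ →* E} {t : GQ → T} {d : GQ →* T} {c g₀ h₀ : GQ}

/-- **the trace of `ρ_T` on the inertia group at `l ≠ p` from the gate** -/
theorem t_eq_of_gate_of_pcong (h : Input r t d c g₀ h₀) {l p : ℕ} (hl : l.Prime) (hp : p.Prime)
    (hpl : p ≠ l) (hpT : (p : T) ∈ maximalIdeal T)
    (hsep : ∀ x : T, (∀ n, x ∈ maximalIdeal T ^ n) → x = 0)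
    {A : ValuationSubring Qbar} (hA : A.LiesOverPrime l) (hcont : AdicCont (rep h))
    (hres : ∀ s ∈ A.inertiaSubgroupIn ℚ, ∃ k : ℕ,
      Cong (maximalIdeal T) (rep h s ^ (p ^ k) - 1))
    {φ : GQ} (hφ : A.IsFrobeniusAt φ l) {τ : GQ} (hτ : τ ∈ A.inertiaSubgroupIn ℚ)
    (u v : T) (huv : u * v = 1) (hd : d τ = 1)
    (hcube : (r τ - u • (1 : E)) * (r τ - u • (1 : E)) * (r τ - v • (1 : E)) = 0)
    (hul : u ^ l = u) (htf : ∀ x : T, ((l : T) ^ 2 - 1) * x = 0 → x = 0) : t τ = u + v :=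
  Type.t_eq_of_cubic_of_tame h τ φ u v huv hd hcube l hul
    (conj_eq_pow_of_pcong hl hp hpl hpT hsep hA (rep h) hcont hres hφ hτ) htf

/-- **the characteristic polynomial of `ρ_T` on the inertia group at `l ≠ p` from the gate** -/
theorem charpoly_rep_of_gate_of_pcong (h : Input r t d c g₀ h₀) {l p : ℕ} (hl : l.Prime)
    (hp : p.Prime) (hpl : p ≠ l) (hpT : (p : T) ∈ maximalIdeal T)
    (hsep : ∀ x : T, (∀ n, x ∈ maximalIdeal T ^ n) → x = 0)
    {A : ValuationSubring Qbar} (hA : A.LiesOverPrime l) (hcont : AdicCont (rep h))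
    (hres : ∀ s ∈ A.inertiaSubgroupIn ℚ, ∃ k : ℕ,
      Cong (maximalIdeal T) (rep h s ^ (p ^ k) - 1))
    {φ : GQ} (hφ : A.IsFrobeniusAt φ l) {τ : GQ} (hτ : τ ∈ A.inertiaSubgroupIn ℚ)
    (u v : T) (huv : u * v = 1) (hd : d τ = 1)
    (hcube : (r τ - u • (1 : E)) * (r τ - u • (1 : E)) * (r τ - v • (1 : E)) = 0)
    (hul : u ^ l = u) (htf : ∀ x : T, ((l : T) ^ 2 - 1) * x = 0 → x = 0) :
    (rep h τ).charpoly = (X - C u) * (X - C v) :=
  Type.charpoly_rep_of_cubic_of_tame h τ φ u v huv hd hcube l hul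
    (conj_eq_pow_of_pcong hl hp hpl hpT hsep hA (rep h) hcont hres hφ hτ) htf

/-- the same for `S53.Dictionary.ofMat (CH.rep h) hcont` (the Frobenius is produced inside) -/
theorem charpoly_ofMat_of_gate_of_pcong (h : Input r t d c g₀ h₀) (hcont : IsContMat T (rep h))
    {l p : ℕ} (hl : l.Prime) (hp : p.Prime) (hpl : p ≠ l) (hpT : (p : T) ∈ maximalIdeal T)
    (hsep : ∀ x : T, (∀ n, x ∈ maximalIdeal T ^ n) → x = 0)
    {A : ValuationSubring Qbar} (hA : A.LiesOverPrime l)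
    (hres : ∀ s ∈ A.inertiaSubgroupIn ℚ, ∃ k : ℕ,
      Cong (maximalIdeal T) (rep h s ^ (p ^ k) - 1))
    {τ : GQ} (hτ : τ ∈ A.inertiaSubgroupIn ℚ)
    (u v : T) (huv : u * v = 1) (hd : d τ = 1)
    (hcube : (r τ - u • (1 : E)) * (r τ - u • (1 : E)) * (r τ - v • (1 : E)) = 0)
    (hul : u ^ l = u) (htf : ∀ x : T, ((l : T) ^ 2 - 1) * x = 0 → x = 0) :
    LinearMap.charpoly ((ofMat (rep h) hcont).ρ τ) = (X - C u) * (X - C v) := by
  obtain ⟨φ, hφ⟩ := Fermat.Agent.Lib.FrobeniusExists.exists_isFrobeniusAt_algebraicClosure A hl hA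
  rw [TypeRhoT.charpoly_ofMat]
  exact charpoly_rep_of_gate_of_pcong h hl hp hpl hpT hsep hA
    (TypeRhoT.adicCont_of_isContMat hcont) hres hφ hτ u v huv hd hcube hul htf

/-- **`ρ_T` is unipotent on inertia at `l`** when the gate cubic is `(r τ - 1)³ = 0`, the residual
representation being only of `p`-power order on inertia (`l = 2` for the Frey representation) -/
theorem isUnipotentOnInertiaAt_ofMat_of_pcong (h : Input r t d c g₀ h₀)
    (hcont : IsContMat T (rep h))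
    {l p : ℕ} (hl : l.Prime) (hp : p.Prime) (hpl : p ≠ l) (hpT : (p : T) ∈ maximalIdeal T)
    (hsep : ∀ x : T, (∀ n, x ∈ maximalIdeal T ^ n) → x = 0)
    (hres : ∀ A : ValuationSubring Qbar, A.LiesOverPrime l →
      ∀ s ∈ A.inertiaSubgroupIn ℚ, ∃ k : ℕ, Cong (maximalIdeal T) (rep h s ^ (p ^ k) - 1))
    (hd : ∀ A : ValuationSubring Qbar, A.LiesOverPrime l →
      ∀ τ ∈ A.inertiaSubgroupIn ℚ, d τ = 1)
    (hcube : ∀ A : ValuationSubring Qbar, A.LiesOverPrime l →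
      ∀ τ ∈ A.inertiaSubgroupIn ℚ, (r τ - 1) * (r τ - 1) * (r τ - 1) = 0)
    (htf : ∀ x : T, ((l : T) ^ 2 - 1) * x = 0 → x = 0) :
    (ofMat (rep h) hcont).IsUnipotentOnInertiaAt l := by
  intro A hA τ hτ
  have hc : (r τ - (1 : T) • (1 : E)) * (r τ - (1 : T) • (1 : E)) *
      (r τ - (1 : T) • (1 : E)) = 0 := by
    rw [one_smul]
    exact hcube A hA τ hτ
  have h1 := charpoly_ofMat_of_gate_of_pcong h hcont hl hp hpl hpT hsep hA (hres A hA) hτ 1 1
    (one_mul 1) (hd A hA τ hτ) hc (one_pow l) htf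
  rw [h1, map_one, sq]

end Gate

/-! ### `hresP` from the residual representation -/

section Residual

variable {T : Type} [CommRing T] [IsLocalRing T]

/-- a matrix killed by a local homomorphism to a field has its entries in the maximal ideal -/
theorem cong_of_map_eq_zero {k : Type*} [Field k] (π : T →+* k) [IsLocalHom π]
    {x : Matrix (Fin 2) (Fin 2) T} (hx : x.map π = 0) : Cong (maximalIdeal T) x := by
  intro i j
  rw [mem_maximalIdeal, mem_nonunits_iff]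
  intro hu
  have h1 : π (x i j) = 0 := by
    have := congrFun (congrFun hx i) j
    rwa [Matrix.map_apply] at this
  exact (hu.map π).ne_zero h1

/-- **`(ρ_T s - 1)² ≡ 0 mod 𝔪_T`** from the residual equality and `(ρ̄ s - 1)² = 0` -/
theorem cong_sq_of_residual {k₀ k : Type} [Field k₀] [Field k] (π : T →+* k) [IsLocalHom π]
    (ψ : k₀ →+* k) (rbar : ResidualGaloisRep k₀) (b : Module.Basis (Fin 2) k₀ rbar.V)
    (rR : GQ →* Matrix (Fin 2) (Fin 2) T) (hmap : mapMat π rR = mapMat ψ (resMatOf rbar b))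
    {s : GQ} (hs : (rbar.ρ s - 1) * (rbar.ρ s - 1) = 0) :
    Cong (maximalIdeal T) ((rR s - 1) * (rR s - 1)) := by
  apply cong_of_map_eq_zero π
  have h1 : (rR s).map π = (resMatOf rbar b s).map ψ := by
    have := congrArg (fun f : GQ →* Matrix (Fin 2) (Fin 2) k => f s) hmap
    exact this
  have h2 : (rR s - 1).map π = (resMatOf rbar b s - 1).map ψ := by
    rw [Matrix.map_sub (f := π) (fun a b => map_sub π a b), Matrix.map_one π (map_zero π)
      (map_one π), Matrix.map_sub (f := ψ) (fun a b => map_sub ψ a b),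
      Matrix.map_one ψ (map_zero ψ) (map_one ψ), h1]
  have h3 : (resMatOf rbar b s - 1) * (resMatOf rbar b s - 1) = 0 := by
    have h4 : resMatOf rbar b s - 1 = LinearMap.toMatrix b b (rbar.ρ s - 1) := by
      rw [map_sub, Fermat.Agent.S53.Dictionary.resMatOf_apply]
      congr 1
      exact (LinearMap.toMatrix_one b).symm
    rw [h4, ← LinearMap.toMatrix_mul, hs, map_zero]
  have h5 : ((rR s - 1) * (rR s - 1)).map π = (rR s - 1).map π * (rR s - 1).map π :=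
    Matrix.map_mul
  rw [h5, h2]
  have h6 : ((resMatOf rbar b s - 1) * (resMatOf rbar b s - 1)).map ψ =
      (resMatOf rbar b s - 1).map ψ * (resMatOf rbar b s - 1).map ψ := Matrix.map_mul
  rw [← h6, h3]
  exact Matrix.map_zero _ (map_zero ψ)

/-- **`hresP` (`k = 1`) from the residual equality and `(ρ̄ s - 1)² = 0` on inertia** -/
theorem pcong_of_residual {p : ℕ} (hp : p.Prime) (hpT : (p : T) ∈ maximalIdeal T)
    {k₀ k : Type} [Field k₀] [Field k] (π : T →+* k) [IsLocalHom π]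
    (ψ : k₀ →+* k) (rbar : ResidualGaloisRep k₀) (b : Module.Basis (Fin 2) k₀ rbar.V)
    (rR : GQ →* Matrix (Fin 2) (Fin 2) T) (hmap : mapMat π rR = mapMat ψ (resMatOf rbar b))
    {A : ValuationSubring Qbar}
    (hunip : ∀ s ∈ A.inertiaSubgroupIn ℚ, (rbar.ρ s - 1) * (rbar.ρ s - 1) = 0) :
    ∀ s ∈ A.inertiaSubgroupIn ℚ, ∃ k : ℕ, Cong (maximalIdeal T) (rR s ^ (p ^ k) - 1) :=
  pcong_of_cong_sq hp hpT rR fun s hs => cong_sq_of_residual π ψ rbar b rR hmap (hunip s hs)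

variable [Invertible (2 : T)] {E : Type*} [Ring E]
  [Algebra T E] {r : GQ →* E} {t : GQ → T} {d : GQ →* T} {c g₀ h₀ : GQ}

/-- **`ρ_T` IS UNIPOTENT ON INERTIA AT `l`** (the Prelude's literal) from: the residual equality of
`Rho/ExistsNorm`, `(ρ̄ s - 1)² = 0` on inertia at `l` (`Rbar`'s `hunip2` at `l = 2`), `d = 1` on
inertia and the gate cubic `(r τ - 1)³ = 0`. -/
theorem isUnipotentOnInertiaAt_ofMat_of_residual (h : Input r t d c g₀ h₀)
    (hcont : IsContMat T (rep h))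
    {l p : ℕ} (hl : l.Prime) (hp : p.Prime) (hpl : p ≠ l) (hpT : (p : T) ∈ maximalIdeal T)
    (hsep : ∀ x : T, (∀ n, x ∈ maximalIdeal T ^ n) → x = 0)
    {k₀ k : Type} [Field k₀] [Field k] (π : T →+* k) [IsLocalHom π]
    (ψ : k₀ →+* k) (rbar : ResidualGaloisRep k₀) (b : Module.Basis (Fin 2) k₀ rbar.V)
    (hmap : mapMat π (rep h) = mapMat ψ (resMatOf rbar b))
    (hunip : ∀ A : ValuationSubring Qbar, A.LiesOverPrime l →
      ∀ s ∈ A.inertiaSubgroupIn ℚ, (rbar.ρ s - 1) * (rbar.ρ s - 1) = 0)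
    (hd : ∀ A : ValuationSubring Qbar, A.LiesOverPrime l →
      ∀ τ ∈ A.inertiaSubgroupIn ℚ, d τ = 1)
    (hcube : ∀ A : ValuationSubring Qbar, A.LiesOverPrime l →
      ∀ τ ∈ A.inertiaSubgroupIn ℚ, (r τ - 1) * (r τ - 1) * (r τ - 1) = 0)
    (htf : ∀ x : T, ((l : T) ^ 2 - 1) * x = 0 → x = 0) :
    (ofMat (rep h) hcont).IsUnipotentOnInertiaAt l :=
  isUnipotentOnInertiaAt_ofMat_of_pcong h hcont hl hp hpl hpT hsep
    (fun A hA => pcong_of_residual hp hpT π ψ rbar b (rep h) hmap (hunip A hA)) hd hcube htf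

end Residual

end Fermat.Agent.S43.Rho.Props.UnipTwo

end
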