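import Fermat.Agent.S43.Rho.Props.Det
import Fermat.Agent.S43.Rho.Props.UnipTwo

/-!
# PROJECT R (S43), block L1, Props: THE LOCAL TYPES OF `ρ_T` FOR A DENSITY DATUM

Binders of `Rho/Props/Det` : `h : Dens.Datum Sg (maximalIdeal R₀) r ε T`,
`hin : CH.Input (Dens.rT h) (Dens.tT h) (Glue.dHom ε T) c g₀ h₀`, `T` ANY commutative local
subalgebra of `End_{R₀}(Λ)` (`R₀` noetherian local, `Λ` finite).  The theorems of
`Rho/Props/TypeRhoT` (helper4) and `Rho/Props/UnipTwo` are stated for a `CH.Input` over an abstract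
local ring, with the side hypotheses `hsep`, `hpT`, `htf`, `hres`, `hd` and the gate cubic in
`End_T(Λ)`.  Here every one of them is discharged from the data of record:

* `finite_T`, `isNoetherianRing_T`, `sep_T` : `T` is module-finite over `R₀`, noetherian, separated ;
* `torsionFree_T`, `torsionFree_T_of_isUnit` : `htf` from `Λ` without `(l² - 1)`-torsion ;
* `cube_endT` : the gate cubic in `End_T(Λ)` from the gate cubic in `End_{R₀}(Λ)` ;
* `cong_of_residual_unramified` : `hres` from the residual equality of `Rho/ExistsNorm` and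
  `ρ̄` unramified at `l` ;
* **`charpoly_rhoT_of_gate`** : `charpoly ρ_T(τ) = (X - u)(X - v)` on inertia at `l ≠ p` ;
* `tT_eq_of_gate`, `tT_sq_eq_of_gate`, `trace_rhoT_of_gate`, `trace_sq_rhoT_of_gate` : `t(τ) = u + v`
  and the sign-free display `t(τ²) = u² + v²` ;
* **`isUnipotentOnInertiaAt_rhoT`** : the Prelude's `IsUnipotentOnInertiaAt l` at a residually
  unramified `l` (the stuck primes) ;
* **`typeChi_rhoT`** : helper21's `Cond.TypeChi χ l` ;
* **`isUnipotentOnInertiaAt_rhoT_of_residual`** : `IsUnipotentOnInertiaAt l` at a prime where the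
  residual representation is a (possibly non trivial) unipotent on inertia (`l = 2` for Frey).
-/

set_option autoImplicit false
set_option linter.unusedSectionVars false

noncomputable section

namespace Fermat.Agent.S43.Rho.Props.TypeDatum

open Polynomial IsLocalRing
open Fermat.Agent.S31.Core Fermat.Agent.S43.Rho
open Fermat.Agent.S53.Dictionary hiding GQ
open Fermat.Agent.S43.RSide.LocalMat (Cong)
open scoped IsMulCommutative

variable {R₀ : Type} [CommRing R₀] [IsLocalRing R₀] [IsNoetherianRing R₀]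
  {Λ : Type} [AddCommGroup Λ] [Module R₀ Λ] [Module.Finite R₀ Λ]
  {Sg : Finset ℕ} {r : GQ →* Module.End R₀ Λ} {ε : GQ →* R₀}
  {T : Subalgebra R₀ (Module.End R₀ Λ)} [IsMulCommutative ↥T] [IsLocalRing ↥T]
  [IsLocalHom (algebraMap R₀ ↥T)] [Invertible (2 : ↥T)]

attribute [local instance] Glue.smulCommClassT Glue.algebraEnd

/-! ### `T` is finite over `R₀`, noetherian and separated -/

section ring

variable (T)

/-- `T` is module-finite over the noetherian `R₀` -/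
theorem finite_T : Module.Finite R₀ ↥T := by
  have h1 : IsNoetherian R₀ (Module.End R₀ Λ) := isNoetherian_linearMap R₀ Λ Λ
  have h2 : IsNoetherian R₀ (Subalgebra.toSubmodule T) := isNoetherian_submodule' _
  exact Module.IsNoetherian.finite R₀ (Subalgebra.toSubmodule T)

/-- `T` is a noetherian ring -/
theorem isNoetherianRing_T : IsNoetherianRing ↥T := by
  have := finite_T T
  exact isNoetherian_of_isNoetherianRing_of_finite R₀ ↥T |> fun h =>
    isNoetherian_of_tower R₀ h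

/-- **`T` is separated for its maximal ideal** (Krull) -/
theorem sep_T (x : ↥T) (hx : ∀ n, x ∈ maximalIdeal ↥T ^ n) : x = 0 := by
  have := isNoetherianRing_T T
  exact Fermat.Agent.S43.RSide.LocalMat.sep_of_isNoetherianRing x hx

/-- no `(q² - 1)`-torsion in `T` when there is none in `Λ` -/
theorem torsionFree_T (q : ℕ) (htf : ∀ v : Λ, ((q : R₀) ^ 2 - 1) • v = 0 → v = 0) (x : ↥T)
    (hx : ((q : ↥T) ^ 2 - 1) * x = 0) : x = 0 := by
  apply Subtype.ext
  apply LinearMap.ext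
  intro v
  apply htf
  have e : ((q : ↥T) ^ 2 - 1) = algebraMap R₀ ↥T ((q : R₀) ^ 2 - 1) := by
    rw [map_sub, map_pow, map_natCast, map_one]
  rw [e] at hx
  have h1 : ((algebraMap R₀ ↥T ((q : R₀) ^ 2 - 1) * x : ↥T) : Module.End R₀ Λ) v = 0 := by
    rw [hx]
    rfl
  have h2 : ((algebraMap R₀ ↥T ((q : R₀) ^ 2 - 1) * x : ↥T) : Module.End R₀ Λ) =
      ((q : R₀) ^ 2 - 1) • (x : Module.End R₀ Λ) := by
    rw [← Algebra.smul_def]
    rfl
  rw [h2] at h1
  exact h1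

/-- no `(q² - 1)`-torsion in `T` when `q² - 1` is a unit of `R₀` (`q = 2`, `3` a unit) -/
theorem torsionFree_T_of_isUnit (q : ℕ) (hu : IsUnit ((q : R₀) ^ 2 - 1)) (x : ↥T)
    (hx : ((q : ↥T) ^ 2 - 1) * x = 0) : x = 0 := by
  refine torsionFree_T T q (fun v hv => ?_) x hx
  obtain ⟨w, hw⟩ := hu
  have h1 : (↑w⁻¹ : R₀) • (((q : R₀) ^ 2 - 1) • v) = v := by
    rw [← hw, smul_smul, Units.inv_mul, one_smul]
  rw [← h1, hv, smul_zero]

end ring

/-! ### The gate cubic in `End_T(Λ)` -/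

variable (h : Dens.Datum Sg (maximalIdeal R₀) r ε T) {c g₀ h₀ : GQ}
  (hin : CH.Input (E := Module.End ↥T Λ) (Dens.rT h) (Dens.tT h) (Glue.dHom ε T) c g₀ h₀)

/-- the cubic in `End_T(Λ)` from the cubic in `End_{R₀}(Λ)` -/
theorem cube_endT (τ : GQ) (u v : ↥T)
    (hcube : (r τ - (u : Module.End R₀ Λ)) * (r τ - (u : Module.End R₀ Λ)) *
      (r τ - (v : Module.End R₀ Λ)) = 0) :
    (Dens.rT h τ - u • (1 : Module.End ↥T Λ)) * (Dens.rT h τ - u • (1 : Module.End ↥T Λ)) *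
      (Dens.rT h τ - v • (1 : Module.End ↥T Λ)) = 0 := by
  apply LinearMap.ext
  intro x
  exact LinearMap.congr_fun hcube x

/-- the unipotent cubic in `End_T(Λ)` from the one in `End_{R₀}(Λ)` -/
theorem cube_endT_one (τ : GQ) (hcube : (r τ - 1) * (r τ - 1) * (r τ - 1) = 0) :
    (Dens.rT h τ - 1) * (Dens.rT h τ - 1) * (Dens.rT h τ - 1) = 0 := by
  have h1 := cube_endT h τ 1 1 (by rw [OneMemClass.coe_one]; exact hcube)
  rw [one_smul] at h1
  exact h1

/-- the cubic with scalars of `R₀` -/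
theorem cube_endT_algebraMap (τ : GQ) (a b : R₀)
    (hcube : (r τ - a • (1 : Module.End R₀ Λ)) * (r τ - a • (1 : Module.End R₀ Λ)) *
      (r τ - b • (1 : Module.End R₀ Λ)) = 0) :
    (Dens.rT h τ - algebraMap R₀ ↥T a • (1 : Module.End ↥T Λ)) *
      (Dens.rT h τ - algebraMap R₀ ↥T a • (1 : Module.End ↥T Λ)) *
        (Dens.rT h τ - algebraMap R₀ ↥T b • (1 : Module.End ↥T Λ)) = 0 := by
  refine cube_endT h τ (algebraMap R₀ ↥T a) (algebraMap R₀ ↥T b) ?_
  have e : ∀ a : R₀, ((algebraMap R₀ ↥T a : ↥T) : Module.End R₀ Λ) =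
      a • (1 : Module.End R₀ Λ) := fun a => by
    rw [Algebra.algebraMap_eq_smul_one]
    rfl
  rw [e a, e b]
  exact hcube

/-- `d = 1` where `ε = 1` -/
theorem dHom_eq_one {τ : GQ} (hε : ε τ = 1) : Glue.dHom ε T τ = 1 := by
  rw [Glue.dHom_apply, hε, map_one]

/-! ### `hres` from the residual representation -/

/-- **`ρ_T s ≡ 1 mod 𝔪_T`** from the residual equality and `ρ̄ s = 1` -/
theorem cong_of_residual {T' : Type} [CommRing T'] [IsLocalRing T']
    {k₀ k : Type} [Field k₀] [Field k] (π : T' →+* k) [IsLocalHom π]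
    (ψ : k₀ →+* k) (rbar : ResidualGaloisRep k₀) (b : Module.Basis (Fin 2) k₀ rbar.V)
    (rR : GQ →* Matrix (Fin 2) (Fin 2) T') (hmap : mapMat π rR = mapMat ψ (resMatOf rbar b))
    {s : GQ} (hs : rbar.ρ s = 1) :
    Cong (maximalIdeal T') (rR s - 1) := by
  apply UnipTwo.cong_of_map_eq_zero π
  have h1 : (rR s).map π = (resMatOf rbar b s).map ψ := by
    have := congrArg (fun f : GQ →* Matrix (Fin 2) (Fin 2) k => f s) hmap
    exact this
  have h2 : resMatOf rbar b s = 1 := by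
    rw [Fermat.Agent.S53.Dictionary.resMatOf_apply, hs]
    exact LinearMap.toMatrix_one b
  rw [Matrix.map_sub (f := π) (fun a b => map_sub π a b), Matrix.map_one π (map_zero π)
    (map_one π), h1, h2, Matrix.map_one ψ (map_zero ψ) (map_one ψ), sub_self]

/-- `hres` at a prime where `ρ̄` is unramified -/
theorem cong_of_residual_unramified {T' : Type} [CommRing T'] [IsLocalRing T']
    {k₀ k : Type} [Field k₀] [Field k] (π : T' →+* k) [IsLocalHom π]
    (ψ : k₀ →+* k) (rbar : ResidualGaloisRep k₀) (b : Module.Basis (Fin 2) k₀ rbar.V)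
    (rR : GQ →* Matrix (Fin 2) (Fin 2) T') (hmap : mapMat π rR = mapMat ψ (resMatOf rbar b))
    {l : ℕ} (hunr : rbar.IsUnramifiedAt l)
    (A : ValuationSubring Qbar) (hA : A.LiesOverPrime l) :
    ∀ s ∈ A.inertiaSubgroupIn ℚ, Cong (maximalIdeal T') (rR s - 1) :=
  fun s hs => cong_of_residual π ψ rbar b rR hmap (hunr A hA s hs)

/-! ### The local types of `ρ_T` -/

section types

variable {l p : ℕ} (hl : l.Prime) (hp : p.Prime) (hpl : p ≠ l)
  (hpR : (p : R₀) ∈ maximalIdeal R₀)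
  (rbar : ResidualGaloisRep (ResidueField R₀))
  (b : Module.Basis (Fin 2) (ResidueField R₀) rbar.V)
  (hmap : mapMat (residue ↥T) (CH.rep hin) =
    mapMat (ResidueField.map (algebraMap R₀ ↥T)) (resMatOf rbar b))

include hl hp hpl hpR hmap in
/-- **the characteristic polynomial of `ρ_T(τ)`, `τ` in an inertia group at a residually
unramified `l ≠ p`**, from the gate cubic `(r τ - u)² (r τ - v) = 0` in `End_{R₀}(Λ)` -/
theorem charpoly_rhoT_of_gate (hunr : rbar.IsUnramifiedAt l)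
    {A : ValuationSubring Qbar} (hA : A.LiesOverPrime l)
    {τ : GQ} (hτ : τ ∈ A.inertiaSubgroupIn ℚ)
    (u v : ↥T) (huv : u * v = 1) (hε : ε τ = 1)
    (hcube : (r τ - (u : Module.End R₀ Λ)) * (r τ - (u : Module.End R₀ Λ)) *
      (r τ - (v : Module.End R₀ Λ)) = 0)
    (hul : u ^ l = u) (htf : ∀ w : Λ, ((l : R₀) ^ 2 - 1) • w = 0 → w = 0) :
    LinearMap.charpoly ((Det.rhoT h hin).ρ τ) = (X - C u) * (X - C v) :=
  TypeRhoT.charpoly_ofMat_of_gate hin (Exists.isContMat_rep h hin) hl hp hpl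
    (Det.natCast_mem_maximalIdeal hpR) (sep_T T) hA
    (cong_of_residual_unramified (residue ↥T) (ResidueField.map (algebraMap R₀ ↥T)) rbar b
      (CH.rep hin) hmap hunr A hA) hτ u v huv (dHom_eq_one hε) (cube_endT h τ u v hcube) hul
    (torsionFree_T T l htf)

include hl hp hpl hpR hmap in
/-- **`t(τ) = u + v`**, `τ` in an inertia group at a residually unramified `l ≠ p` -/
theorem tT_eq_of_gate (hunr : rbar.IsUnramifiedAt l)
    {A : ValuationSubring Qbar} (hA : A.LiesOverPrime l)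
    {τ : GQ} (hτ : τ ∈ A.inertiaSubgroupIn ℚ)
    (u v : ↥T) (huv : u * v = 1) (hε : ε τ = 1)
    (hcube : (r τ - (u : Module.End R₀ Λ)) * (r τ - (u : Module.End R₀ Λ)) *
      (r τ - (v : Module.End R₀ Λ)) = 0)
    (hul : u ^ l = u) (htf : ∀ w : Λ, ((l : R₀) ^ 2 - 1) • w = 0 → w = 0) :
    Dens.tT h τ = u + v := by
  obtain ⟨φ, hφ⟩ := Fermat.Agent.Lib.FrobeniusExists.exists_isFrobeniusAt_algebraicClosure A hl hA
  exact Type.t_eq_of_gate hin hl hp hpl (Det.natCast_mem_maximalIdeal hpR) (sep_T T) hA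
    (TypeRhoT.adicCont_of_isContMat (Exists.isContMat_rep h hin))
    (cong_of_residual_unramified (residue ↥T) (ResidueField.map (algebraMap R₀ ↥T)) rbar b
      (CH.rep hin) hmap hunr A hA) hφ hτ u v huv (dHom_eq_one hε) (cube_endT h τ u v hcube) hul
    (torsionFree_T T l htf)

include hl hp hpl hpR hmap in
/-- **the sign-free display `t(τ²) = u² + v²`**, `τ` in an inertia group at a residually unramified
`l ≠ p` -/
theorem tT_sq_eq_of_gate (hunr : rbar.IsUnramifiedAt l)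
    {A : ValuationSubring Qbar} (hA : A.LiesOverPrime l)
    {τ : GQ} (hτ : τ ∈ A.inertiaSubgroupIn ℚ)
    (u v : ↥T) (huv : u * v = 1) (hε : ε τ = 1)
    (hcube : (r τ - (u : Module.End R₀ Λ)) * (r τ - (u : Module.End R₀ Λ)) *
      (r τ - (v : Module.End R₀ Λ)) = 0)
    (hul : u ^ l = u) (htf : ∀ w : Λ, ((l : R₀) ^ 2 - 1) • w = 0 → w = 0) :
    Dens.tT h (τ * τ) = u * u + v * v := by
  obtain ⟨φ, hφ⟩ := Fermat.Agent.Lib.FrobeniusExists.exists_isFrobeniusAt_algebraicClosure A hl hA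
  exact Type.t_sq_of_gate hin hl hp hpl (Det.natCast_mem_maximalIdeal hpR) (sep_T T) hA
    (TypeRhoT.adicCont_of_isContMat (Exists.isContMat_rep h hin))
    (cong_of_residual_unramified (residue ↥T) (ResidueField.map (algebraMap R₀ ↥T)) rbar b
      (CH.rep hin) hmap hunr A hA) hφ hτ u v huv (dHom_eq_one hε) (cube_endT h τ u v hcube) hul
    (torsionFree_T T l htf)

include hl hp hpl hpR hmap in
/-- **`tr ρ_T(τ) = u + v`** -/
theorem trace_rhoT_of_gate (hunr : rbar.IsUnramifiedAt l)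
    {A : ValuationSubring Qbar} (hA : A.LiesOverPrime l)
    {τ : GQ} (hτ : τ ∈ A.inertiaSubgroupIn ℚ)
    (u v : ↥T) (huv : u * v = 1) (hε : ε τ = 1)
    (hcube : (r τ - (u : Module.End R₀ Λ)) * (r τ - (u : Module.End R₀ Λ)) *
      (r τ - (v : Module.End R₀ Λ)) = 0)
    (hul : u ^ l = u) (htf : ∀ w : Λ, ((l : R₀) ^ 2 - 1) • w = 0 → w = 0) :
    (Det.rhoT h hin).trace τ = u + v := by
  rw [Det.trace_rhoT]
  exact tT_eq_of_gate h hin hl hp hpl hpR rbar b hmap hunr hA hτ u v huv hε hcube hul htf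

include hl hp hpl hpR hmap in
/-- **the sign-free display `tr ρ_T(τ²) = u² + v²`** -/
theorem trace_sq_rhoT_of_gate (hunr : rbar.IsUnramifiedAt l)
    {A : ValuationSubring Qbar} (hA : A.LiesOverPrime l)
    {τ : GQ} (hτ : τ ∈ A.inertiaSubgroupIn ℚ)
    (u v : ↥T) (huv : u * v = 1) (hε : ε τ = 1)
    (hcube : (r τ - (u : Module.End R₀ Λ)) * (r τ - (u : Module.End R₀ Λ)) *
      (r τ - (v : Module.End R₀ Λ)) = 0)
    (hul : u ^ l = u) (htf : ∀ w : Λ, ((l : R₀) ^ 2 - 1) • w = 0 → w = 0) :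
    (Det.rhoT h hin).trace (τ * τ) = u * u + v * v := by
  rw [Det.trace_rhoT]
  exact tT_sq_eq_of_gate h hin hl hp hpl hpR rbar b hmap hunr hA hτ u v huv hε hcube hul htf

include hl hp hpl hpR hmap in
/-- **`ρ_T` IS UNIPOTENT ON INERTIA AT A RESIDUALLY UNRAMIFIED `l ≠ p`** (the stuck primes; the
Prelude's literal, i.e. the clause of `Cond.cond1`) from the gate cubic `(r τ - 1)³ = 0` in
`End_{R₀}(Λ)` -/
theorem isUnipotentOnInertiaAt_rhoT (hunr : rbar.IsUnramifiedAt l)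
    (hε : ∀ A : ValuationSubring Qbar, A.LiesOverPrime l →
      ∀ τ ∈ A.inertiaSubgroupIn ℚ, ε τ = 1)
    (hcube : ∀ A : ValuationSubring Qbar, A.LiesOverPrime l →
      ∀ τ ∈ A.inertiaSubgroupIn ℚ, (r τ - 1) * (r τ - 1) * (r τ - 1) = 0)
    (htf : ∀ w : Λ, ((l : R₀) ^ 2 - 1) • w = 0 → w = 0) :
    (Det.rhoT h hin).IsUnipotentOnInertiaAt l :=
  TypeRhoT.isUnipotentOnInertiaAt_ofMat hin (Exists.isContMat_rep h hin) hl hp hpl
    (Det.natCast_mem_maximalIdeal hpR) (sep_T T)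
    (fun A hA => cong_of_residual_unramified (residue ↥T) (ResidueField.map (algebraMap R₀ ↥T))
      rbar b (CH.rep hin) hmap hunr A hA)
    (fun A hA τ hτ => dHom_eq_one (hε A hA τ hτ))
    (fun A hA τ hτ => cube_endT_one h τ (hcube A hA τ hτ)) (torsionFree_T T l htf)

include hl hp hpl hpR hmap in
/-- **`ρ_T` HAS INERTIAL TYPE `{χ_l, χ_l⁻¹}` AT A RESIDUALLY UNRAMIFIED `l ≠ p`** (helper21's
`Cond.TypeChi`, the clause of `Cond.condChi`) from the gate cubic
`(r τ - χ_l(τ))² (r τ - χ_l(τ)⁻¹) = 0` in `End_{R₀}(Λ)` -/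
theorem typeChi_rhoT (χ : ℕ → Fermat.Agent.S43.RSide.Cond.GalQ →* R₀ˣ)
    (hunr : rbar.IsUnramifiedAt l)
    (hε : ∀ A : ValuationSubring Qbar, A.LiesOverPrime l →
      ∀ τ ∈ A.inertiaSubgroupIn ℚ, ε τ = 1)
    (hχ : ∀ A : ValuationSubring Qbar, A.LiesOverPrime l →
      ∀ τ ∈ A.inertiaSubgroupIn ℚ, (χ l τ) ^ l = χ l τ)
    (hcube : ∀ A : ValuationSubring Qbar, A.LiesOverPrime l →
      ∀ τ ∈ A.inertiaSubgroupIn ℚ,
        (r τ - ((χ l τ : R₀ˣ) : R₀) • (1 : Module.End R₀ Λ)) *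
          (r τ - ((χ l τ : R₀ˣ) : R₀) • (1 : Module.End R₀ Λ)) *
            (r τ - (((χ l τ)⁻¹ : R₀ˣ) : R₀) • (1 : Module.End R₀ Λ)) = 0)
    (htf : ∀ w : Λ, ((l : R₀) ^ 2 - 1) • w = 0 → w = 0) :
    Fermat.Agent.S43.RSide.Cond.TypeChi χ l (Det.rhoT h hin) :=
  TypeRhoT.typeChi_ofMat χ hin (Exists.isContMat_rep h hin) hl hp hpl
    (Det.natCast_mem_maximalIdeal hpR) (sep_T T)
    (fun A hA => cong_of_residual_unramified (residue ↥T) (ResidueField.map (algebraMap R₀ ↥T))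
      rbar b (CH.rep hin) hmap hunr A hA)
    (fun A hA τ hτ => dHom_eq_one (hε A hA τ hτ)) hχ
    (fun A hA τ hτ => cube_endT_algebraMap h τ _ _ (hcube A hA τ hτ)) (torsionFree_T T l htf)

include hl hp hpl hpR hmap in
/-- **`ρ_T` IS UNIPOTENT ON INERTIA AT `l ≠ p` WHERE `ρ̄` IS A (POSSIBLY NON TRIVIAL) UNIPOTENT ON
INERTIA** (`l = 2` for the Frey representation: `Rbar`'s `hunip2`), from the gate cubic
`(r τ - 1)³ = 0` in `End_{R₀}(Λ)` (`Rho/Feed/Gate.rQ_unipotent_two(_D)`) -/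
theorem isUnipotentOnInertiaAt_rhoT_of_residual
    (hunip : ∀ A : ValuationSubring Qbar, A.LiesOverPrime l →
      ∀ s ∈ A.inertiaSubgroupIn ℚ, (rbar.ρ s - 1) * (rbar.ρ s - 1) = 0)
    (hε : ∀ A : ValuationSubring Qbar, A.LiesOverPrime l →
      ∀ τ ∈ A.inertiaSubgroupIn ℚ, ε τ = 1)
    (hcube : ∀ A : ValuationSubring Qbar, A.LiesOverPrime l →
      ∀ τ ∈ A.inertiaSubgroupIn ℚ, (r τ - 1) * (r τ - 1) * (r τ - 1) = 0)
    (htf : ∀ w : Λ, ((l : R₀) ^ 2 - 1) • w = 0 → w = 0) :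
    (Det.rhoT h hin).IsUnipotentOnInertiaAt l :=
  UnipTwo.isUnipotentOnInertiaAt_ofMat_of_residual hin (Exists.isContMat_rep h hin) hl hp hpl
    (Det.natCast_mem_maximalIdeal hpR) (sep_T T) (residue ↥T)
    (ResidueField.map (algebraMap R₀ ↥T)) rbar b hmap hunip
    (fun A hA τ hτ => dHom_eq_one (hε A hA τ hτ))
    (fun A hA τ hτ => cube_endT_one h τ (hcube A hA τ hτ)) (torsionFree_T T l htf)

include hp hpR hmap in
/-- the case `l = 2` : `3` is a unit of `R₀` (`p ≥ 5`), so no torsion hypothesis on `Λ` -/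
theorem isUnipotentOnInertiaAt_rhoT_two (hp2 : p ≠ 2) (h3 : IsUnit (3 : R₀))
    (hunip : ∀ A : ValuationSubring Qbar, A.LiesOverPrime 2 →
      ∀ s ∈ A.inertiaSubgroupIn ℚ, (rbar.ρ s - 1) * (rbar.ρ s - 1) = 0)
    (hε : ∀ A : ValuationSubring Qbar, A.LiesOverPrime 2 →
      ∀ τ ∈ A.inertiaSubgroupIn ℚ, ε τ = 1)
    (hcube : ∀ A : ValuationSubring Qbar, A.LiesOverPrime 2 →
      ∀ τ ∈ A.inertiaSubgroupIn ℚ, (r τ - 1) * (r τ - 1) * (r τ - 1) = 0) :
    (Det.rhoT h hin).IsUnipotentOnInertiaAt 2 := by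
  refine isUnipotentOnInertiaAt_rhoT_of_residual h hin Nat.prime_two hp hp2 hpR rbar b hmap hunip
    hε hcube (fun w hw => ?_)
  have e : (((2 : ℕ) : R₀) ^ 2 - 1) = 3 := by norm_num
  rw [e] at hw
  obtain ⟨u, hu⟩ := h3
  have h1 : (↑u⁻¹ : R₀) • ((3 : R₀) • w) = w := by
    rw [← hu, smul_smul, Units.inv_mul, one_smul]
  rw [← h1, hw, smul_zero]

end types

end Fermat.Agent.S43.Rho.Props.TypeDatum

end
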