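import Fermat.Agent.S43.Rho.Props.Joint
import Fermat.Agent.S43.Rho.RhoT

/-!
# PROJECT R (S43), block L1, Props: the joint approximation, IN THE TWO HECKE RINGS

`exists_joint_approx_ring` : for two density data over Noetherian local rings, with `T₁`, `T₂` local
and commutative: ONE prime `ℓ`, ONE Frobenius element `τ`, ONE exponent `j` with
`t₁(g) ≡ V_j(t₁(τ), ℓ)` modulo `𝔪_{T₁} ^ n` AND `t₂(g) ≡ V_j(t₂(τ), ℓ)` modulo `𝔪_{T₂} ^ n`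
(`Joint.exists_joint_approx_frob` + Artin–Rees `RhoT.exists_shift_smallEnd`: small on `Λ` implies
small in `T`).  The Lucas polynomials are taken in the rings `T_i`.
-/

set_option autoImplicit false
set_option linter.unusedSectionVars false

noncomputable section

namespace Fermat.Agent.S43.Rho.Props.JointRing

open IsLocalRing
open Fermat.Agent.S31.Core Fermat.Agent.S43.Rho
open scoped IsMulCommutative

section one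

variable {R₀ : Type*} [CommRing R₀] {Λ : Type*} [AddCommGroup Λ] [Module R₀ Λ]
  {Sg : Finset ℕ} {I₀ : Ideal R₀} {r : GQ →* Module.End R₀ Λ} {ε : GQ →* R₀}
  {T : Subalgebra R₀ (Module.End R₀ Λ)}

/-- the Lucas polynomial of `t(τ)` in the ring `T`, seen in `End Λ` -/
theorem coe_lucas_tT (h : Dens.Datum Sg I₀ r ε T) (τ : GQ) (ℓ j : ℕ) :
    ((lucas (Dens.tT h τ) ((ℓ : ℕ) : ↥T) j : ↥T) : Module.End R₀ Λ) =
      lucas (Dens.tr r ε τ) ((ℓ : ℕ) : Module.End R₀ Λ) j := by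
  have h2 := map_lucas T.val.toRingHom (Dens.tT h τ) ((ℓ : ℕ) : ↥T) j
  rw [map_natCast] at h2
  exact h2

/-- the difference `t(g) - V_j(t(τ), ℓ)` of the ring `T`, seen in `End Λ` -/
theorem coe_tT_sub_lucas (h : Dens.Datum Sg I₀ r ε T) (g τ : GQ) (ℓ j : ℕ) :
    T.val (Dens.tT h g - lucas (Dens.tT h τ) ((ℓ : ℕ) : ↥T) j) =
      Dens.tr r ε g - lucas (Dens.tr r ε τ) ((ℓ : ℕ) : Module.End R₀ Λ) j := by
  rw [map_sub]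
  congr 1
  exact coe_lucas_tT h τ ℓ j

end one

variable {R₁ : Type*} [CommRing R₁] [IsLocalRing R₁] [IsNoetherianRing R₁]
  {Λ₁ : Type*} [AddCommGroup Λ₁] [Module R₁ Λ₁] [Module.Finite R₁ Λ₁]
  {Sg₁ : Finset ℕ} {r₁ : GQ →* Module.End R₁ Λ₁} {ε₁ : GQ →* R₁}
  {T₁ : Subalgebra R₁ (Module.End R₁ Λ₁)} [IsMulCommutative ↥T₁] [IsLocalRing ↥T₁]
  [IsLocalHom (algebraMap R₁ ↥T₁)]
  {R₂ : Type*} [CommRing R₂] [IsLocalRing R₂] [IsNoetherianRing R₂]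
  {Λ₂ : Type*} [AddCommGroup Λ₂] [Module R₂ Λ₂] [Module.Finite R₂ Λ₂]
  {Sg₂ : Finset ℕ} {r₂ : GQ →* Module.End R₂ Λ₂} {ε₂ : GQ →* R₂}
  {T₂ : Subalgebra R₂ (Module.End R₂ Λ₂)} [IsMulCommutative ↥T₂] [IsLocalRing ↥T₂]
  [IsLocalHom (algebraMap R₂ ↥T₂)]

/-- **the joint approximation in the two Hecke rings** -/
theorem exists_joint_approx_ring (h₁ : Dens.Datum Sg₁ (maximalIdeal R₁) r₁ ε₁ T₁)
    (h₂ : Dens.Datum Sg₂ (maximalIdeal R₂) r₂ ε₂ T₂) (g : GQ) (n : ℕ) :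
    ∃ (ℓ : ℕ) (A : ValuationSubring Qbar) (τ : GQ) (j : ℕ), ℓ.Prime ∧ ℓ ∉ Sg₁ ∧ ℓ ∉ Sg₂ ∧
      A.LiesOverPrime ℓ ∧ A.IsFrobeniusAt τ ℓ ∧
      Dens.tT h₁ g - lucas (Dens.tT h₁ τ) ((ℓ : ℕ) : ↥T₁) j ∈ maximalIdeal ↥T₁ ^ n ∧
      Dens.tT h₂ g - lucas (Dens.tT h₂ τ) ((ℓ : ℕ) : ↥T₂) j ∈ maximalIdeal ↥T₂ ^ n := by
  obtain ⟨k₁, hk₁⟩ := RhoT.exists_shift_smallEnd T₁.val Subtype.val_injective
  obtain ⟨k₂, hk₂⟩ := RhoT.exists_shift_smallEnd T₂.val Subtype.val_injective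
  obtain ⟨ℓ, A, τ, j, hℓ, hℓS₁, hℓS₂, hA, hτ, ha₁, ha₂⟩ :=
    Joint.exists_joint_approx_frob h₁ h₂ g (n + k₁) (n + k₂)
  refine ⟨ℓ, A, τ, j, hℓ, hℓS₁, hℓS₂, hA, hτ, hk₁ n _ ?_, hk₂ n _ ?_⟩
  · rw [coe_tT_sub_lucas]
    exact ha₁
  · rw [coe_tT_sub_lucas]
    exact ha₂

/-- the one-datum form: `t(g) ≡ V_j(t(τ), ℓ)` modulo `𝔪_T ^ n` for a Frobenius element `τ` -/
theorem exists_approx_ring (h₁ : Dens.Datum Sg₁ (maximalIdeal R₁) r₁ ε₁ T₁) (g : GQ) (n : ℕ) :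
    ∃ (ℓ : ℕ) (A : ValuationSubring Qbar) (τ : GQ) (j : ℕ), ℓ.Prime ∧ ℓ ∉ Sg₁ ∧
      A.LiesOverPrime ℓ ∧ A.IsFrobeniusAt τ ℓ ∧
      Dens.tT h₁ g - lucas (Dens.tT h₁ τ) ((ℓ : ℕ) : ↥T₁) j ∈ maximalIdeal ↥T₁ ^ n := by
  obtain ⟨ℓ, A, τ, j, hℓ, hℓS₁, -, hA, hτ, ha₁, -⟩ := exists_joint_approx_ring h₁ h₁ g n
  exact ⟨ℓ, A, τ, j, hℓ, hℓS₁, hA, hτ, ha₁⟩

end Fermat.Agent.S43.Rho.Props.JointRing

end
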