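import Mathlib
import Fermat.Agent.S43.Rho.CH

/-!
# PROJECT R (S43), block L1, brick `Props/Transport` (helper7)

Corollaries of (CL+) (`Rho/CH.lean`, helper8): every `T`-linear relation between the `r g` in the
Cayley–Hamilton algebra `E` holds between the matrices `ρ g = rep h g`; more precisely `E` is
compressed to `M₂(T)` by the idempotents `e⁺`, `e⁻`, for arbitrary `T`-linear combinations.

* `compress_sum11` … `compress_sum22` : the four entries of `∑ mᵢ • ρ gᵢ` from `Z = ∑ mᵢ • r gᵢ`
  (`sum_rep_eq_zero` is the case `Z = 0`);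
* `rep_eq_of`, `rep_eq_one_of` : `r g = r g'` ⟹ `ρ g = ρ g'`; `r g = 1` ⟹ `ρ g = 1` (unramifiedness);
* `finsupp_sum_rep_eq_zero` : the `Finsupp` form;
* `aeval_rep_eq_zero` : a polynomial relation `P(r g) = 0`, `P ∈ T[X]`, gives `P(ρ g) = 0` (the gate
  cubic with coefficients in `T`);
* `input_map`, `rep_map` : extension of the coefficients to a commutative `T' ⊇ T` acting on `E`
  (`T[Δ]`): the hypotheses of (CL+) persist and `ρ' = ρ.map (algebraMap T T')`;
* `entry_smul_mem` : the module form of the compression, `E = End_T(Λ)`: if `Z` maps `Λ` into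
  `J • Λ` (`J` an ideal of `T`) then the entries of `∑ mᵢ • ρ gᵢ` map `Λ^±` into `J • Λ`
  (the input of the Chevalley step of `Props/Flat`).
-/

set_option autoImplicit false
set_option linter.unusedSectionVars false

namespace Fermat.Agent.S43.Rho.Props.Transport

open Matrix Fermat.Agent.S43.Rho.CH

variable {T : Type*} [CommRing T] [Invertible (2 : T)] {E : Type*} [Ring E] [Algebra T E]
  {G : Type*} [Group G]
variable {r : G →* E} {t : G → T} {d : G →* T} {c g₀ h₀ : G}

/-! ### compression of arbitrary linear combinations -/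

section Compress

variable (h : Input r t d c g₀ h₀) {ι : Type*} (s : Finset ι) (m : ι → T) (g : ι → G)

theorem compress_sum11 :
    ep (T := T) r c * ((∑ i ∈ s, m i • r (g i)) * ep (T := T) r c) =
      ((∑ i ∈ s, m i • rep h (g i)) 0 0) • ep (T := T) r c := by
  rw [Matrix.sum_apply]
  simp only [Matrix.smul_apply, smul_eq_mul, Finset.sum_mul, Finset.mul_sum, smul_mul_assoc,
    mul_smul_comm, compress11 h, smul_smul, Finset.sum_smul]

theorem compress_sum12 :
    ep (T := T) r c * ((∑ i ∈ s, m i • r (g i)) *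
        (em (T := T) r c * (r h₀ * ep (T := T) r c))) =
      ((∑ i ∈ s, m i • rep h (g i)) 0 1) • ep (T := T) r c := by
  rw [Matrix.sum_apply]
  simp only [Matrix.smul_apply, smul_eq_mul, Finset.sum_mul, Finset.mul_sum, smul_mul_assoc,
    mul_smul_comm, compress12 h, smul_smul, Finset.sum_smul]

theorem compress_sum21 :
    ep (T := T) r c * (r g₀ * (em (T := T) r c * ((∑ i ∈ s, m i • r (g i)) *
        ep (T := T) r c))) =
      (xT t c g₀ h₀ * (∑ i ∈ s, m i • rep h (g i)) 1 0) • ep (T := T) r c := by
  rw [Matrix.sum_apply]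
  simp only [Matrix.smul_apply, smul_eq_mul, Finset.sum_mul, Finset.mul_sum, smul_mul_assoc,
    mul_smul_comm, compress21 h, smul_smul, Finset.sum_smul]
  refine Finset.sum_congr rfl fun i _ => ?_
  congr 1
  ring

theorem compress_sum22 :
    em (T := T) r c * ((∑ i ∈ s, m i • r (g i)) * em (T := T) r c) =
      ((∑ i ∈ s, m i • rep h (g i)) 1 1) • em (T := T) r c := by
  rw [Matrix.sum_apply]
  simp only [Matrix.smul_apply, smul_eq_mul, Finset.sum_mul, Finset.mul_sum, smul_mul_assoc,
    mul_smul_comm, compress22 h, smul_smul, Finset.sum_smul]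

end Compress

/-! ### equalities -/

section Eq

variable (h : Input r t d c g₀ h₀)

/-- `r g = r g'` ⟹ `ρ g = ρ g'` -/
theorem rep_eq_of {g g' : G} (hg : r g = r g') : rep h g = rep h g' := by
  have hz : ∑ i ∈ (Finset.univ : Finset (Fin 2)), (![1, -1] : Fin 2 → T) i • r ((![g, g'] : Fin 2 → G) i)
      = 0 := by
    rw [Fin.sum_univ_two]
    simp [hg]
  have h1 := sum_rep_eq_zero h Finset.univ (![1, -1] : Fin 2 → T) (![g, g'] : Fin 2 → G) hz
  rw [Fin.sum_univ_two] at h1
  simp only [Matrix.cons_val_zero, Matrix.cons_val_one, one_smul, neg_smul] at h1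
  exact sub_eq_zero.mp (by rw [sub_eq_add_neg]; exact h1)

/-- `r g = 1` ⟹ `ρ g = 1` (unramifiedness is transported) -/
theorem rep_eq_one_of {g : G} (hg : r g = 1) : rep h g = 1 := by
  rw [rep_eq_of h (g' := 1) (by rw [hg, map_one]), map_one]

/-- the subgroup form: `r` trivial on `H` ⟹ `ρ` trivial on `H` -/
theorem rep_eq_one_on (H : Subgroup G) (hH : ∀ g ∈ H, r g = 1) : ∀ g ∈ H, rep h g = 1 :=
  fun g hg => rep_eq_one_of h (hH g hg)

/-- the `Finsupp` form of the transport lemma -/
theorem finsupp_sum_rep_eq_zero (x : G →₀ T) (hx : (x.sum fun g a => a • r g) = 0) :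
    (x.sum fun g a => a • rep h g) = 0 :=
  sum_rep_eq_zero h x.support (fun g => x g) (fun g => g) hx

/-- **a polynomial relation in one element is transported**: `P(r g) = 0 ⟹ P(ρ g) = 0` -/
theorem aeval_rep_eq_zero (g : G) (P : Polynomial T) (hP : Polynomial.aeval (r g) P = 0) :
    Polynomial.aeval (rep h g) P = 0 := by
  rw [Polynomial.aeval_eq_sum_range] at hP ⊢
  have hz : ∑ i ∈ Finset.range (P.natDegree + 1), P.coeff i • r (g ^ i) = 0 := by
    rw [← hP]
    exact Finset.sum_congr rfl fun i _ => by rw [map_pow]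
  have h1 := sum_rep_eq_zero h _ (fun i => P.coeff i) (fun i => g ^ i) hz
  rw [← h1]
  exact Finset.sum_congr rfl fun i _ => by rw [map_pow]

end Eq

/-! ### extension of the coefficients -/

section Map

variable {T' : Type*} [CommRing T'] [Invertible (2 : T')] [Algebra T T'] [Algebra T' E]
  [IsScalarTower T T' E]

theorem map_half : algebraMap T T' (⅟2 : T) = (⅟2 : T') :=
  (invOf_eq_right_inv (by
    rw [← map_ofNat (algebraMap T T') 2, ← map_mul, mul_invOf_self, map_one])).symm

theorem aT_map (t : G → T) (c g : G) :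
    aT (fun g => algebraMap T T' (t g)) c g = algebraMap T T' (aT t c g) := by
  rw [aT, aT, map_mul, map_add, map_half]

theorem dT_map (t : G → T) (c g : G) :
    dT (fun g => algebraMap T T' (t g)) c g = algebraMap T T' (dT t c g) := by
  rw [dT, dT, map_mul, map_sub, map_half]

theorem xT_map (t : G → T) (c g g' : G) :
    xT (fun g => algebraMap T T' (t g)) c g g' = algebraMap T T' (xT t c g g') := by
  rw [xT, xT, aT_map, aT_map, aT_map, map_sub, map_mul]

theorem yT_map (t : G → T) (c g g' : G) :
    yT (fun g => algebraMap T T' (t g)) c g g' = algebraMap T T' (yT t c g g') := by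
  rw [yT, yT, dT_map, dT_map, dT_map, map_sub, map_mul]

/-- **the hypotheses of (CL+) persist over a commutative `T' ⊇ T` acting faithfully on `E`** -/
theorem input_map (h : Input r t d c g₀ h₀) (hinj : ∀ s : T', s • (1 : E) = 0 → s = 0) :
    Input r (fun g => algebraMap T T' (t g)) ((algebraMap T T' : T →* T').comp d) c g₀ h₀ where
  inj := hinj
  ch := fun g => by
    have h1 := h.ch g
    show r g * r g - algebraMap T T' (t g) • r g + algebraMap T T' (d g) • (1 : E) = 0
    rw [algebraMap_smul, algebraMap_smul]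
    exact h1
  c_sq := h.c_sq
  d_c := by
    show algebraMap T T' (d c) = -1
    rw [h.d_c, map_neg, map_one]
  ux := by
    rw [xT_map]
    exact h.ux.map (algebraMap T T')
  uy := by
    rw [yT_map]
    exact h.uy.map (algebraMap T T')

/-- **`ρ' = ρ.map (algebraMap T T')`** -/
theorem rep_map (h : Input r t d c g₀ h₀) (hinj : ∀ s : T', s • (1 : E) = 0 → s = 0) (g : G) :
    rep (input_map h hinj) g = (rep h g).map (algebraMap T T') := by
  have hu : uinv (input_map h hinj) = algebraMap T T' (uinv h) := by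
    have h1 := uinv_mul (input_map h hinj)
    rw [xT_map] at h1
    have h2 : algebraMap T T' (uinv h) * algebraMap T T' (xT t c g₀ h₀) = 1 := by
      rw [← map_mul, uinv_mul, map_one]
    have hunit : IsUnit (algebraMap T T' (xT t c g₀ h₀)) := h.ux.map _
    exact hunit.mul_left_injective (h1.trans h2.symm)
  rw [rep_apply, rep_apply]
  ext i j
  fin_cases i <;> fin_cases j
  · exact aT_map t c g
  · exact xT_map t c g h₀
  · show uinv (input_map h hinj) * xT (fun g => algebraMap T T' (t g)) c g₀ g =
      algebraMap T T' (uinv h * xT t c g₀ g)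
    rw [hu, xT_map, map_mul]
  · exact dT_map t c g

end Map

/-! ### the module form -/

section Module

variable {Lam : Type*} [AddCommGroup Lam] [Module T Lam]
variable {r : G →* Module.End T Lam} {t : G → T} {d : G →* T} {c g₀ h₀ : G}

/-- `J • Λ` is stable under every `T`-linear endomorphism -/
theorem end_apply_mem_smul_top (J : Ideal T) (f : Module.End T Lam) {v : Lam}
    (hv : v ∈ J • (⊤ : Submodule T Lam)) : f v ∈ J • (⊤ : Submodule T Lam) := by
  refine Submodule.smul_induction_on hv (fun a ha w _ => ?_) fun x y hx hy => ?_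
  · rw [map_smul]
    exact Submodule.smul_mem_smul ha Submodule.mem_top
  · rw [map_add]
    exact Submodule.add_mem _ hx hy

variable (h : Input r t d c g₀ h₀) {ι : Type*} (s : Finset ι) (m : ι → T) (g : ι → G)

/-- **the module form of the compression**: if `Z = ∑ mᵢ • r gᵢ` maps `Λ` into `J • Λ` then the
entries of `∑ mᵢ • ρ gᵢ` map `Λ⁺ = e⁺ Λ` (resp. `Λ⁻ = e⁻ Λ` for the entry `(1,1)`) into `J • Λ`. -/
theorem entry_smul_mem (J : Ideal T)
    (hZ : ∀ v : Lam, (∑ i ∈ s, m i • r (g i)) v ∈ J • (⊤ : Submodule T Lam)) (v : Lam) :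
    ((∑ i ∈ s, m i • rep h (g i)) 0 0) • ep (T := T) r c v ∈ J • (⊤ : Submodule T Lam) ∧
    ((∑ i ∈ s, m i • rep h (g i)) 0 1) • ep (T := T) r c v ∈ J • (⊤ : Submodule T Lam) ∧
    (xT t c g₀ h₀ * (∑ i ∈ s, m i • rep h (g i)) 1 0) • ep (T := T) r c v ∈
      J • (⊤ : Submodule T Lam) ∧
    ((∑ i ∈ s, m i • rep h (g i)) 1 1) • em (T := T) r c v ∈ J • (⊤ : Submodule T Lam) := by
  refine ⟨?_, ?_, ?_, ?_⟩
  · rw [← LinearMap.smul_apply, ← compress_sum11 h s m g, Module.End.mul_apply,
      Module.End.mul_apply]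
    exact end_apply_mem_smul_top J _ (hZ _)
  · rw [← LinearMap.smul_apply, ← compress_sum12 h s m g, Module.End.mul_apply,
      Module.End.mul_apply]
    exact end_apply_mem_smul_top J _ (hZ _)
  · rw [← LinearMap.smul_apply, ← compress_sum21 h s m g, Module.End.mul_apply,
      Module.End.mul_apply, Module.End.mul_apply, Module.End.mul_apply]
    exact end_apply_mem_smul_top J _ (end_apply_mem_smul_top J _
      (end_apply_mem_smul_top J _ (hZ _)))
  · rw [← LinearMap.smul_apply, ← compress_sum22 h s m g, Module.End.mul_apply,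
      Module.End.mul_apply]
    exact end_apply_mem_smul_top J _ (hZ _)

end Module

end Fermat.Agent.S43.Rho.Props.Transport
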