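import Fermat.Agent.S43.Rho.Exists
import Fermat.Agent.S43.Rho.Conj
import Fermat.Agent.S43.Rho.Props.Transport

/-!
# PROJECT R (S43), block L1, Props: `ρ_T` for a density datum; trace, determinant, ramification

`h : Dens.Datum Sg (maximalIdeal 𝒪) r ε T`, `hin : CH.Input (Dens.rT h) (Dens.tT h) (Glue.dHom ε T) c g₀ h₀`
(the output of `Rho/Exists.exists_rhoT`).

* `rhoT h hin : GaloisRepAdic ↥T := ofMat (CH.rep hin) _` (main's `S53.Dictionary.ofMat`);
* `trace_rhoT` : `tr ρ_T σ = Dens.tT h σ` (`= r σ + ε σ • r σ⁻¹` in `End Λ`: `coe_trace_rhoT`);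
* `det_rhoT` : `det ρ_T σ = algebraMap 𝒪 T (ε σ)`;
* `detIsCyclotomic_rhoT` : the Prelude's `DetIsCyclotomic p` when `ε = cycChar p ι`;
* `rep_eq_one_of_r`, `isUnramifiedAt_rhoT` : `ρ_T` is unramified at `q` as soon as the inertia
  groups at `q` act trivially on `Λ`;
* `rep_eq_of_r` : `r g = r g'` on `Λ` ⟹ `ρ_T g = ρ_T g'`.
-/

set_option autoImplicit false
set_option linter.unusedSectionVars false

noncomputable section

namespace Fermat.Agent.S43.Rho.Props.Det

open IsLocalRing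
open Fermat.Agent.S31.Core Fermat.Agent.S43.Rho
open Fermat.Agent.S53.Dictionary hiding GQ
open Fermat.Agent.S30.Algebra.Cyclotomic (cycChar cycChar_apply)
open scoped IsMulCommutative

variable {R₀ : Type} [CommRing R₀] [IsLocalRing R₀] [IsNoetherianRing R₀]
  {Λ : Type} [AddCommGroup Λ] [Module R₀ Λ] [Module.Finite R₀ Λ]
  {Sg : Finset ℕ} {r : GQ →* Module.End R₀ Λ} {ε : GQ →* R₀}
  {T : Subalgebra R₀ (Module.End R₀ Λ)} [IsMulCommutative ↥T] [IsLocalRing ↥T]
  [IsLocalHom (algebraMap R₀ ↥T)] [Invertible (2 : ↥T)]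

attribute [local instance] Glue.smulCommClassT Glue.algebraEnd

variable (h : Dens.Datum Sg (maximalIdeal R₀) r ε T) {c g₀ h₀ : GQ}
  (hin : CH.Input (E := Module.End ↥T Λ) (Dens.rT h) (Dens.tT h) (Glue.dHom ε T) c g₀ h₀)

/-- **`ρ_T`** -/
def rhoT : GaloisRepAdic ↥T := ofMat (CH.rep hin) (Exists.isContMat_rep h hin)

theorem rhoT_eq :
    rhoT h hin = RhoTOfCH.rhoT hin T.val Subtype.val_injective (Exists.htc h) := rfl

theorem rhoT_ρ (σ : GQ) : (rhoT h hin).ρ σ = Matrix.toLin' (CH.rep hin σ) := rfl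

theorem trace_rhoT (σ : GQ) : (rhoT h hin).trace σ = Dens.tT h σ :=
  RhoTOfCH.trace_rhoT hin T.val Subtype.val_injective (Exists.htc h) σ

theorem coe_trace_rhoT (σ : GQ) :
    (((rhoT h hin).trace σ : ↥T) : Module.End R₀ Λ) = r σ + ε σ • r σ⁻¹ := by
  rw [trace_rhoT]
  rfl

theorem det_rhoT (σ : GQ) :
    LinearMap.det ((rhoT h hin).ρ σ) = algebraMap R₀ ↥T (ε σ) :=
  RhoTOfCH.det_ρ_rhoT hin T.val Subtype.val_injective (Exists.htc h) σ

/-- `p` lies in the maximal ideal of `T` -/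
theorem natCast_mem_maximalIdeal {p : ℕ} (hp : (p : R₀) ∈ maximalIdeal R₀) :
    (p : ↥T) ∈ maximalIdeal ↥T := by
  rw [← map_natCast (algebraMap R₀ ↥T) p]
  exact map_nonunit (algebraMap R₀ ↥T) _ hp

/-- **the determinant of `ρ_T` is the cyclotomic character**, in the Prelude's vocabulary -/
theorem detIsCyclotomic_rhoT (p : ℕ) [Fact p.Prime] (ι : ℤ_[p] →+* R₀)
    (hε : ∀ σ, ε σ = cycChar p ι σ) (hp : (p : R₀) ∈ maximalIdeal R₀) :
    (rhoT h hin).DetIsCyclotomic p := by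
  refine Conj.detIsCyclotomic_of_det_eq p (rhoT h hin) ((algebraMap R₀ ↥T).comp ι)
    (natCast_mem_maximalIdeal hp) (fun σ => ?_)
  rw [det_rhoT, hε σ, cycChar_apply, cycChar_apply]
  rfl

/-- an element acting trivially on `Λ` has trivial matrix -/
theorem rep_eq_one_of_r {σ : GQ} (hσ : r σ = 1) : CH.rep hin σ = 1 := by
  refine Transport.rep_eq_one_of hin ?_
  refine LinearMap.ext fun v => ?_
  rw [Dens.rT_apply, hσ]
  rfl

/-- two elements with the same action on `Λ` have the same matrix -/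
theorem rep_eq_of_r {σ σ' : GQ} (hσ : r σ = r σ') : CH.rep hin σ = CH.rep hin σ' := by
  refine Transport.rep_eq_of hin ?_
  refine LinearMap.ext fun v => ?_
  rw [Dens.rT_apply, Dens.rT_apply, hσ]

/-- **`ρ_T` is unramified where `Λ` is** -/
theorem isUnramifiedAt_rhoT (q : ℕ)
    (hq : ∀ P : ValuationSubring Qbar, P.LiesOverPrime q → ∀ σ ∈ P.inertiaSubgroupIn ℚ,
      r σ = 1) : (rhoT h hin).IsUnramifiedAt q :=
  RhoTOfCH.isUnramifiedAt_rhoT hin T.val Subtype.val_injective (Exists.htc h) q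
    (fun P hP σ hσ => rep_eq_one_of_r h hin (hq P hP σ hσ))

/-- the residual representation of `ρ_T`, in the Prelude's vocabulary, from the equality of
matrices of `Rho/Exists.exists_rhoT_residue` -/
theorem residual_rhoT_isEquiv (ρbar : ResidualGaloisRep (ResidueField R₀))
    (b : Module.Basis (Fin 2) (ResidueField R₀) ρbar.V)
    (hres : mapMat (residue ↥T) (CH.rep hin) =
      mapMat (ResidueField.map (algebraMap R₀ ↥T)) (resMatOf ρbar b)) :
    (rhoT h hin).residual.IsEquiv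
      (ρbar.baseChangeAlong (ResidueField.map (algebraMap R₀ ↥T))) :=
  residual_ofMat_isEquiv ρbar (resMatOf ρbar b) (factors_resMatOf ρbar b)
    ⟨resEquivOfMatMatOf ρbar b⟩ (CH.rep hin) (Exists.isContMat_rep h hin) hres

end Fermat.Agent.S43.Rho.Props.Det

end
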