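/-
PROJECT R (S43), block L1 (architect helper22), brick Rho/Props/FlatCore (helper27):
THE CHEVALLEY STEP OF THE FLATNESS OF `ρ_T`, ABSTRACT HALF.

`R₀` a Noetherian local ring, `Λ` a finite `R₀`-module, `T ⊆ End_{R₀}(Λ)` a commutative local
subalgebra with `R₀ → T` local, `hin : CH.Input r t d c g₀ h₀` an input of the Cayley–Hamilton lemma
with `E = End_T(Λ)`.  Then the `𝔪_T`-adic size of a `T`-linear combination of the matrices
`CH.rep hin g` is controlled by the `𝔪_{R₀}`-adic size of the same combination of the `r g` on `Λ`: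

* `exists_shift_linear` : Artin–Rees for an injective `R₀`-linear map `T → End_{R₀}(Λ)` (the linear
  twin of `Rho/RhoT.exists_shift_smallEnd`);
* `exists_shift_rep` : there is `k₀` such that `(∑ mᵢ • r gᵢ) Λ ⊆ 𝔪^(n + k₀) Λ` forces all entries of
  `∑ mᵢ • CH.rep hin gᵢ` into `𝔪_T ^ n` (compression by `e⁺`, `e⁻` = `Props/Transport.entry_smul_mem`,
  then Artin–Rees on `s ↦ s e⁺`, `s ↦ s e⁻`, injective by `CH.faithful_ep`, `CH.faithful_em`);
* `exists_shift_ofMat` : the same for `ofMat (CH.rep hin) _` and integral combinations, in the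
  literal shape of the conclusion of `htr` in main's `S32/FlatOfTransfer`;
* `exists_shift_rhoT` : the same for `Props/Det.rhoT h hin`, hypothesis on `r : G_ℚ → End_{R₀}(Λ)`;
* `isFlatAt_rhoT` : `ρ_T` is flat at `p` as soon as `Λ` is compared with the Tate module of a
  `G_ℚ`-module `J` whose `p`-power torsion carries Hopf orders (`hcmp`: small on `T_p J` ⟹ small on
  `Λ`); the instance half of `Props/Flat` has `hcmp` as its only task;
* `transfer_surjective`, `transfer_bc`, `transfer_mono` : the three moves that produce `hcmp` (equivariant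
  quotients or direct summands, base change `O ⊗ -`, enlarging the ideal).
-/
import Mathlib
import Fermat.Agent.S43.Rho.Props.Det
import Fermat.Agent.S43.Rho.Feed.Base
import Fermat.Agent.S32.FlatOfTransfer

set_option autoImplicit false
set_option linter.unusedSectionVars false

noncomputable section

namespace Fermat.Agent.S43.Rho.Props.FlatCore

open IsLocalRing
open Fermat.Agent.S31.Core Fermat.Agent.S43.Rho
open Fermat.Agent.S53.Dictionary hiding GQ
open scoped IsMulCommutative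

/-! ### Artin–Rees for a linear injection `T → End Λ` -/

section shift

variable {𝒪 : Type*} [CommRing 𝒪] [IsLocalRing 𝒪] [IsNoetherianRing 𝒪]
  {Lam : Type*} [AddCommGroup Lam] [Module 𝒪 Lam] [Module.Finite 𝒪 Lam]
  {T : Type*} [CommRing T] [IsLocalRing T] [Algebra 𝒪 T] [IsLocalHom (algebraMap 𝒪 T)]

/-- **Artin–Rees for an injective linear map `T → End_𝒪 Λ`**: elements of `T` whose image is small
on `Λ` are small in `T`. -/
theorem exists_shift_linear (φ : T →ₗ[𝒪] Module.End 𝒪 Lam) (hφ : Function.Injective φ) :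
    ∃ k : ℕ, ∀ n : ℕ, ∀ s : T,
      (∀ v : Lam, φ s v ∈ (maximalIdeal 𝒪 ^ (n + k)) • (⊤ : Submodule 𝒪 Lam)) →
        s ∈ maximalIdeal T ^ n := by
  obtain ⟨m, v, hv⟩ := Module.Finite.exists_fin (R := 𝒪) (M := Lam)
  let ψ : T →ₗ[𝒪] (Fin m → Lam) :=
    { toFun := fun s i => φ s (v i)
      map_add' := fun s s' => by
        funext i
        rw [map_add, LinearMap.add_apply, Pi.add_apply]
      map_smul' := fun a s => by
        funext i
        rw [map_smul, LinearMap.smul_apply, RingHom.id_apply, Pi.smul_apply] }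
  have hψ : Function.Injective ψ := by
    intro s s' hss'
    apply hφ
    apply LinearMap.ext_on_range hv
    intro i
    exact congrFun hss' i
  obtain ⟨k, hk⟩ := ArtinRees.exists_shift ψ hψ
  exact ⟨k, fun n s hs => hk n s (RhoT.mem_smul_top_pi _ _ fun i => hs (v i))⟩

end shift

/-! ### The entries of `∑ mᵢ • CH.rep hin gᵢ` -/

section rep

variable {R₀ : Type*} [CommRing R₀] [IsLocalRing R₀] [IsNoetherianRing R₀]
  {Λ : Type*} [AddCommGroup Λ] [Module R₀ Λ] [Module.Finite R₀ Λ]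
  {T : Subalgebra R₀ (Module.End R₀ Λ)} [IsMulCommutative ↥T] [IsLocalRing ↥T]
  [IsLocalHom (algebraMap R₀ ↥T)] [Invertible (2 : ↥T)]
  {G : Type*} [Group G] {r : G →* Module.End ↥T Λ} {t : G → ↥T} {d : G →* ↥T} {c g₀ h₀ : G}

attribute [local instance] Glue.smulCommClassT Glue.algebraEnd

/-- `s ↦ (v ↦ s • f v)`, as an `R₀`-linear map `T → End_{R₀}(Λ)` (`f` a `T`-linear endomorphism) -/
def mulEnd (f : Module.End ↥T Λ) : ↥T →ₗ[R₀] Module.End R₀ Λ :=
  (LinearMap.mulRight R₀ (f.restrictScalars R₀ : Module.End R₀ Λ)).comp T.val.toLinearMap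

theorem mulEnd_apply (f : Module.End ↥T Λ) (s : ↥T) (v : Λ) : mulEnd f s v = s • f v := rfl

/-- `(I T) Λ = I Λ` -/
theorem mem_map_smul_top_iff (I : Ideal R₀) (v : Λ) :
    v ∈ (I.map (algebraMap R₀ ↥T)) • (⊤ : Submodule ↥T Λ) ↔ v ∈ I • (⊤ : Submodule R₀ Λ) := by
  have h1 := Ideal.smul_restrictScalars (S := ↥T) (M := Λ) I (⊤ : Submodule ↥T Λ)
  rw [Submodule.restrictScalars_top] at h1
  rw [← h1, Submodule.restrictScalars_mem]

/-- **the Chevalley step**: the `𝔪_T`-adic size of the entries of `∑ mᵢ • ρ gᵢ` is controlled by the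
`𝔪_{R₀}`-adic size of `∑ mᵢ • r gᵢ` on `Λ`. -/
theorem exists_shift_rep (hin : CH.Input r t d c g₀ h₀) :
    ∃ k₀ : ℕ, ∀ n : ℕ, ∀ {ι : Type} (s : Finset ι) (m : ι → ↥T) (g : ι → G),
      (∀ v : Λ, (∑ i ∈ s, m i • r (g i)) v ∈
        (maximalIdeal R₀ ^ (n + k₀)) • (⊤ : Submodule R₀ Λ)) →
      ∀ a b : Fin 2, (∑ i ∈ s, m i • CH.rep hin (g i)) a b ∈ maximalIdeal ↥T ^ n := by
  have hip : Function.Injective (mulEnd (T := T) (CH.ep (T := ↥T) r c)) := by
    refine (injective_iff_map_eq_zero _).2 fun s hs => CH.faithful_ep hin s ?_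
    refine LinearMap.ext fun v => ?_
    rw [LinearMap.smul_apply, LinearMap.zero_apply, ← mulEnd_apply, hs, LinearMap.zero_apply]
  have him : Function.Injective (mulEnd (T := T) (CH.em (T := ↥T) r c)) := by
    refine (injective_iff_map_eq_zero _).2 fun s hs => CH.faithful_em hin s ?_
    refine LinearMap.ext fun v => ?_
    rw [LinearMap.smul_apply, LinearMap.zero_apply, ← mulEnd_apply, hs, LinearMap.zero_apply]
  obtain ⟨kp, hkp⟩ := exists_shift_linear _ hip
  obtain ⟨km, hkm⟩ := exists_shift_linear _ him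
  refine ⟨max kp km, fun n ι s m g hZ => ?_⟩
  have hZ' : ∀ v : Λ, (∑ i ∈ s, m i • r (g i)) v ∈
      ((maximalIdeal R₀ ^ (n + max kp km)).map (algebraMap R₀ ↥T)) • (⊤ : Submodule ↥T Λ) :=
    fun v => (mem_map_smul_top_iff _ _).2 (hZ v)
  have hle_p : (maximalIdeal R₀ ^ (n + max kp km)) • (⊤ : Submodule R₀ Λ) ≤
      (maximalIdeal R₀ ^ (n + kp)) • (⊤ : Submodule R₀ Λ) :=
    Submodule.smul_mono_left (Ideal.pow_le_pow_right (by omega))
  have hle_m : (maximalIdeal R₀ ^ (n + max kp km)) • (⊤ : Submodule R₀ Λ) ≤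
      (maximalIdeal R₀ ^ (n + km)) • (⊤ : Submodule R₀ Λ) :=
    Submodule.smul_mono_left (Ideal.pow_le_pow_right (by omega))
  have key := fun v => Transport.entry_smul_mem hin s m g _ hZ' v
  have h00 : (∑ i ∈ s, m i • CH.rep hin (g i)) 0 0 ∈ maximalIdeal ↥T ^ n :=
    hkp n _ fun v => hle_p ((mem_map_smul_top_iff _ _).1 (key v).1)
  have h01 : (∑ i ∈ s, m i • CH.rep hin (g i)) 0 1 ∈ maximalIdeal ↥T ^ n :=
    hkp n _ fun v => hle_p ((mem_map_smul_top_iff _ _).1 (key v).2.1)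
  have h10' : CH.xT t c g₀ h₀ * (∑ i ∈ s, m i • CH.rep hin (g i)) 1 0 ∈ maximalIdeal ↥T ^ n :=
    hkp n _ fun v => hle_p ((mem_map_smul_top_iff _ _).1 (key v).2.2.1)
  have h11 : (∑ i ∈ s, m i • CH.rep hin (g i)) 1 1 ∈ maximalIdeal ↥T ^ n :=
    hkm n _ fun v => hle_m ((mem_map_smul_top_iff _ _).1 (key v).2.2.2)
  have h10 : (∑ i ∈ s, m i • CH.rep hin (g i)) 1 0 ∈ maximalIdeal ↥T ^ n := by
    have h1 := Ideal.mul_mem_left _ (CH.uinv hin) h10'
    rwa [← mul_assoc, CH.uinv_mul, one_mul] at h1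
  intro a b
  fin_cases a <;> fin_cases b
  · exact h00
  · exact h01
  · exact h10
  · exact h11

end rep

/-! ### `ofMat (CH.rep hin) _` and integral combinations -/

section ofMat

variable {R₀ : Type} [CommRing R₀] [IsLocalRing R₀] [IsNoetherianRing R₀]
  {Λ : Type} [AddCommGroup Λ] [Module R₀ Λ] [Module.Finite R₀ Λ]
  {T : Subalgebra R₀ (Module.End R₀ Λ)} [IsMulCommutative ↥T] [IsLocalRing ↥T]
  [IsLocalHom (algebraMap R₀ ↥T)] [Invertible (2 : ↥T)]

attribute [local instance] Glue.smulCommClassT Glue.algebraEnd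

/-- Instance shortcut (the term instance search finds, after a long search). -/
@[reducible] def smulEnd (T : Subalgebra R₀ (Module.End R₀ Λ)) [IsMulCommutative ↥T] :
    SMul ↥T (Module.End ↥T Λ) :=
  LinearMap.instSMul

attribute [local instance] smulEnd

/-- an integral combination of the linear maps of matrices is the linear map of the same
combination of the matrices -/
theorem sum_zsmul_toEnd_apply {A : Type} [CommRing A] {ι : Type} (s : Finset ι) (m : ι → ℤ)
    (M : ι → Mat A) (v : Fin 2 → A) :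
    (∑ i ∈ s, m i • toEnd A (M i)) v = (∑ i ∈ s, (m i : A) • M i).mulVec v := by
  rw [LinearMap.sum_apply, Matrix.sum_mulVec]
  refine Finset.sum_congr rfl fun i _ => ?_
  rw [LinearMap.smul_apply, toEnd_apply, Matrix.smul_mulVec, Int.cast_smul_eq_zsmul]

/-- the same for `ofMat ρ _` -/
theorem sum_zsmul_ofMat_apply {A : Type} [CommRing A] [IsLocalRing A] (ρ : GQ →* Mat A)
    (hρ : IsContMat A ρ) {ι : Type} (s : Finset ι) (m : ι → ℤ) (g : ι → GQ)
    (v : (ofMat ρ hρ).V) :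
    (∑ i ∈ s, m i • (ofMat ρ hρ).ρ (g i)) v =
      (∑ i ∈ s, (m i : A) • ρ (g i)).mulVec (v : Fin 2 → A) :=
  sum_zsmul_toEnd_apply s m (fun i => ρ (g i)) v

/-- **the Chevalley step for `ofMat (CH.rep hin) _`**, in the literal shape of the conclusion of
`htr` in main's `S32/FlatOfTransfer.isFlatAt_of_transfer_pow`. -/
theorem exists_shift_ofMat {r : GQ →* Module.End ↥T Λ} {t : GQ → ↥T} {d : GQ →* ↥T}
    {c g₀ h₀ : GQ} (hin : CH.Input r t d c g₀ h₀) (hcont : IsContMat ↥T (CH.rep hin)) :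
    ∃ k₀ : ℕ, ∀ n : ℕ, ∀ {ι : Type} (s : Finset ι) (m : ι → ℤ) (g : ι → GQ),
      (∀ v : Λ, (∑ i ∈ s, m i • r (g i)) v ∈
        (maximalIdeal R₀ ^ (n + k₀)) • (⊤ : Submodule R₀ Λ)) →
      ∀ v : (ofMat (CH.rep hin) hcont).V,
        (∑ i ∈ s, m i • (ofMat (CH.rep hin) hcont).ρ (g i)) v ∈
          (maximalIdeal ↥T ^ n) • (⊤ : Submodule ↥T (ofMat (CH.rep hin) hcont).V) := by
  obtain ⟨k₀, hk⟩ := exists_shift_rep hin
  refine ⟨k₀, fun n ι s m g hZ v => ?_⟩
  have h1 := hk n s (fun i => ((m i : ℤ) : ↥T)) g (fun v => by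
    have h2 : (∑ i ∈ s, ((m i : ℤ) : ↥T) • r (g i)) = ∑ i ∈ s, m i • r (g i) :=
      Finset.sum_congr rfl fun i _ => Int.cast_smul_eq_zsmul ↥T (m i) (r (g i))
    rw [h2]
    exact hZ v)
  rw [sum_zsmul_ofMat_apply]
  refine mem_smul_top_of_forall_mem _ _ fun a => ?_
  change ∑ b, (∑ i ∈ s, ((m i : ℤ) : ↥T) • CH.rep hin (g i)) a b * (v : Fin 2 → ↥T) b ∈ _
  exact Ideal.sum_mem _ fun b _ => Ideal.mul_mem_right _ _ (h1 a b)

end ofMat

/-! ### Transfer of smallness -/

section transfer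

open TensorProduct

variable {R : Type*} [CommRing R] {M N : Type*} [AddCommGroup M] [Module R M] [AddCommGroup N]
  [Module R N]

/-- smallness passes to an equivariant quotient (in particular to an equivariant direct summand) -/
theorem transfer_surjective (π : M →ₗ[R] N) (hπ : Function.Surjective π) {ι : Type*}
    (s : Finset ι) (m : ι → ℤ) (f : ι → Module.End R M) (f' : ι → Module.End R N)
    (hf : ∀ i v, π (f i v) = f' i (π v)) (I : Ideal R)
    (h : ∀ v : M, (∑ i ∈ s, m i • f i) v ∈ I • (⊤ : Submodule R M)) (w : N) :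
    (∑ i ∈ s, m i • f' i) w ∈ I • (⊤ : Submodule R N) := by
  obtain ⟨v, rfl⟩ := hπ w
  have h1 : (∑ i ∈ s, m i • f' i) (π v) = π ((∑ i ∈ s, m i • f i) v) := by
    rw [LinearMap.sum_apply, LinearMap.sum_apply, map_sum]
    refine Finset.sum_congr rfl fun i _ => ?_
    rw [LinearMap.smul_apply, LinearMap.smul_apply, map_zsmul, hf]
  rw [h1]
  have h2 := Submodule.mem_map_of_mem (f := π) (h v)
  rw [Submodule.map_smul''] at h2
  exact Submodule.smul_mono le_rfl le_top h2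

/-- smallness passes to the base change `O ⊗ -` -/
theorem transfer_bc (O : Type*) [CommRing O] [Algebra R O] {ι : Type*} (s : Finset ι) (m : ι → ℤ)
    (f : ι → Module.End R M) (I : Ideal R)
    (h : ∀ v : M, (∑ i ∈ s, m i • f i) v ∈ I • (⊤ : Submodule R M)) (w : O ⊗[R] M) :
    (∑ i ∈ s, m i • Feed.Base.bc R O M (f i)) w ∈
      (I.map (algebraMap R O)) • (⊤ : Submodule O (O ⊗[R] M)) := by
  have h1 : (∑ i ∈ s, m i • Feed.Base.bc R O M (f i)) =
      Feed.Base.bc R O M (∑ i ∈ s, m i • f i) := by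
    rw [map_sum]
    exact Finset.sum_congr rfl fun i _ => (map_zsmul (Feed.Base.bc R O M) (m i) (f i)).symm
  rw [h1]
  exact Feed.Base.smallEnd_bc O I h w

/-- enlarging the ideal -/
theorem transfer_mono {I I' : Ideal R} (hI : I ≤ I') {f : Module.End R M}
    (h : ∀ v : M, f v ∈ I • (⊤ : Submodule R M)) (v : M) : f v ∈ I' • (⊤ : Submodule R M) :=
  Submodule.smul_mono_left hI (h v)

/-- `(π)^k O ⊆ 𝔪^k` when `π ∈ 𝔪` -/
theorem map_span_pow_le (O : Type*) [CommRing O] [Algebra R O] {π : R} {I₀ : Ideal O}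
    (hπ : algebraMap R O π ∈ I₀) (k : ℕ) :
    (Ideal.span {π} ^ k).map (algebraMap R O) ≤ I₀ ^ k := by
  rw [Ideal.map_pow]
  exact Ideal.pow_right_mono (Feed.Base.map_span_singleton_le (O := O) hπ) k

end transfer

/-! ### `ρ_T` of a density datum -/

section rhoT

open GaloisRep Fermat.Agent.S32.HopfClosure Fermat.Agent.S32.HopfClosureZl
open Fermat.Agent.S32.Subquot Fermat.Agent.S32.LevelActs Fermat.Agent.S30.Padic.TateModule

variable {R₀ : Type} [CommRing R₀] [IsLocalRing R₀] [IsNoetherianRing R₀]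
  {Λ : Type} [AddCommGroup Λ] [Module R₀ Λ] [Module.Finite R₀ Λ]
  {Sg : Finset ℕ} {r : GQ →* Module.End R₀ Λ} {ε : GQ →* R₀}
  {T : Subalgebra R₀ (Module.End R₀ Λ)} [IsMulCommutative ↥T] [IsLocalRing ↥T]
  [IsLocalHom (algebraMap R₀ ↥T)] [Invertible (2 : ↥T)]

attribute [local instance] Glue.smulCommClassT Glue.algebraEnd

variable (h : Dens.Datum Sg (maximalIdeal R₀) r ε T) {c g₀ h₀ : GQ}
  (hin : CH.Input (E := Module.End ↥T Λ) (Dens.rT h) (Dens.tT h) (Glue.dHom ε T) c g₀ h₀)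

/-- **the Chevalley step for `ρ_T`**: an integral combination of Galois elements that is
`𝔪^(n + k₀)`-small on `Λ` is `𝔪_T^n`-small on `ρ_T`. -/
theorem exists_shift_rhoT :
    ∃ k₀ : ℕ, ∀ n : ℕ, ∀ {ι : Type} (s : Finset ι) (m : ι → ℤ) (g : ι → GQ),
      (∀ v : Λ, (∑ i ∈ s, m i • r (g i)) v ∈
        (maximalIdeal R₀ ^ (n + k₀)) • (⊤ : Submodule R₀ Λ)) →
      ∀ v : (Det.rhoT h hin).V, (∑ i ∈ s, m i • (Det.rhoT h hin).ρ (g i)) v ∈
        (maximalIdeal ↥T ^ n) • (⊤ : Submodule ↥T (Det.rhoT h hin).V) := by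
  obtain ⟨k₀, hk⟩ := exists_shift_ofMat hin (Exists.isContMat_rep h hin)
  refine ⟨k₀, fun n ι s m g hZ v => hk n s m g (fun w => ?_) v⟩
  have h1 : (∑ i ∈ s, m i • Dens.rT h (g i)) w = (∑ i ∈ s, m i • r (g i)) w := by
    rw [LinearMap.sum_apply, LinearMap.sum_apply]
    rfl
  rw [h1]
  exact hZ w

/-- **`ρ_T` IS FLAT AT `p`** as soon as `Λ` is compared with the Tate module of a `G_ℚ`-module `J`
whose `p`-power torsion subgroups are finite and carry Hopf orders over `ℤ_(p)`: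
`hcmp` = an integral combination of Galois elements that is `p`-adically small on `T_p J` is
`𝔪`-adically small on `Λ`. -/
theorem isFlatAt_rhoT (p : ℕ) [Fact p.Prime] (hres : Finite (ResidueField ↥T))
    {J : Type} [AddCommGroup J] [DistribMulAction (AlgebraicClosure ℚ ≃ₐ[ℚ] AlgebraicClosure ℚ) J]
    (hfinJ : ∀ k : ℕ, Finite (Submodule.torsionBy ℤ J ((p : ℤ) ^ k)))
    (hord : ∀ k : ℕ, ∃ H₀ : Subalgebra (ratLocalizedAt p)
        (Submodule.torsionBy ℤ J ((p : ℤ) ^ k) → AlgebraicClosure ℚ),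
      IsHopfOrderZl p (fun σ t => torsAct
        (G := AlgebraicClosure ℚ ≃ₐ[ℚ] AlgebraicClosure ℚ) (J := J) ((p : ℤ) ^ k) σ t) H₀)
    (hcmp : ∀ n : ℕ, ∃ k : ℕ, ∀ {ι : Type} (s : Finset ι) (m : ι → ℤ)
      (g : ι → (AlgebraicClosure ℚ ≃ₐ[ℚ] AlgebraicClosure ℚ)),
      (∀ v : Tp p J, (∑ i ∈ s, m i • Tp.galoisHom (p := p) (J := J)
        (AlgebraicClosure ℚ ≃ₐ[ℚ] AlgebraicClosure ℚ) (g i)) v ∈
          (Ideal.span {(p : ℤ_[p])} ^ k) • (⊤ : Submodule ℤ_[p] (Tp p J))) →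
      ∀ v : Λ, (∑ i ∈ s, m i • r (g i)) v ∈ (maximalIdeal R₀ ^ n) • (⊤ : Submodule R₀ Λ)) :
    (Det.rhoT h hin).IsFlatAt p := by
  obtain ⟨k₀, hk⟩ := exists_shift_rhoT h hin
  refine Fermat.Agent.S32.FlatOfTransfer.isFlatAt_of_transfer_pow (Det.rhoT h hin) p hres hfinJ
    hord fun n => ?_
  obtain ⟨k, hkn⟩ := hcmp (n + k₀)
  exact ⟨k, fun s m g hs v => hk n s m g (hkn s m g hs) v⟩

end rhoT

end Fermat.Agent.S43.Rho.Props.FlatCore

end
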