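/-
PROJECT R (S43), block L1 (architect helper22), brick Rho/Props/Flat (helper27):
`ρ_T` IS FLAT AT `p`, INSTANCE HALF.

The abstract half is `Props/FlatCore.isFlatAt_rhoT`: it asks for a `G_ℚ`-module `J` whose `p`-power
torsion is finite and carries Hopf orders (`J := J1tw M m`: the chief's `Flat1/Main.hfinJ1`, `hord1`)
and for the comparison `hcmp`: an integral combination of Galois elements that is `p`-adically small
on `T_p J` is `𝔪`-adically small on `Λ`.  Here `Λ = Loc 𝔪_θ (O ⊗ e_H T_p(J1tw M m))` (helper22's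
`Rho/LamMain`, on my `Rho/Feed/Inst`), and `hcmp` is proved along

  `T_p(J1tw M m) → e_H T_p = LamH → O ⊗ LamH = LamO → Loc 𝔪_θ (LamO)`

(`projH`, onto and equivariant: helper11's `JH/Part`; base change: `Feed/Base`; the localisation map,
onto because `O` is complete: helper22's `LamMain.mk_surjective` on helper24's `Hecke/FinLoc`).

* `toLoc`, `toLoc_r0`, `transfer_loc` : the localisation step, abstract in `Lam0`;
* `hcmp` : the comparison;
* `isFlatAt_rhoT` : **`ρ_T` is flat at `p`** (`5 ≤ M`, `p ∤ M`, `p ∤ |H|`, `p ∈ 𝔪_O`).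
-/
import Mathlib
import Fermat.Agent.S43.Rho.Props.FlatCore
import Fermat.Agent.S43.Rho.Feed.Inst
import Fermat.Agent.S43.Rho.LamMain
import Fermat.Agent.S43.Flat1.Main

set_option autoImplicit false
set_option linter.unusedSectionVars false

noncomputable section

namespace Fermat.Agent.S43.Rho.Props.Flat

open IsLocalRing
open Fermat.Agent.S31.Core Fermat.Agent.S43.Rho
open Fermat.Agent.S43.Rho.Lam Fermat.Agent.S43.Hecke.PolyModule

/-! ### The localisation step -/

section loc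

variable (O : Type) [CommRing O] {Lam0 : Type} [AddCommGroup Lam0] [Module O Lam0]
  {J : Type} (t : J → Module.End O Lam0) (hcomm : ∀ i j, Commute (t i) (t j))
  (mI : Ideal (MvPolynomial J O)) [mI.IsMaximal]
  {G : Type*} [Group G] (r0 : G →* Module.End O Lam0) (hr0 : ∀ g j, Commute (r0 g) (t j))

/-- the localisation map, as an `O`-linear map from `Lam0` -/
def toLoc : Lam0 →ₗ[O] Loc mI (WithOps t hcomm) :=
  ((LocalizedModule.mkLinearMap mI.primeCompl (WithOps t hcomm)).restrictScalars O).comp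
    (WithOps.equiv t hcomm).symm.toLinearMap

theorem toLoc_apply (x : Lam0) :
    toLoc O t hcomm mI x = LocalizedModule.mk ((WithOps.equiv t hcomm).symm x) 1 := rfl

/-- the localisation map is equivariant -/
theorem toLoc_r0 (g : G) (x : Lam0) :
    toLoc O t hcomm mI (r0 g x) = LamDatum.rLam O t hcomm mI r0 hr0 g (toLoc O t hcomm mI x) := by
  rw [toLoc_apply, toLoc_apply, LamDatum.rLam_apply, LamDatum.locComm_mk]
  rfl

theorem toLoc_surjective
    (hsurj : Function.Surjective (LocalizedModule.mkLinearMap mI.primeCompl (WithOps t hcomm))) :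
    Function.Surjective (toLoc O t hcomm mI) := by
  intro w
  obtain ⟨x, hx⟩ := hsurj w
  exact ⟨WithOps.equiv t hcomm x, hx⟩

/-- **smallness passes to the localisation** (when the localisation map is onto) -/
theorem transfer_loc
    (hsurj : Function.Surjective (LocalizedModule.mkLinearMap mI.primeCompl (WithOps t hcomm)))
    (I : Ideal O) {ι : Type*} (s : Finset ι) (m : ι → ℤ) (g : ι → G)
    (h : ∀ v : Lam0, (∑ i ∈ s, m i • r0 (g i)) v ∈ I • (⊤ : Submodule O Lam0))
    (w : Loc mI (WithOps t hcomm)) :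
    (∑ i ∈ s, m i • LamDatum.rLam O t hcomm mI r0 hr0 (g i)) w ∈
      I • (⊤ : Submodule O (Loc mI (WithOps t hcomm))) :=
  FlatCore.transfer_surjective (toLoc O t hcomm mI) (toLoc_surjective O t hcomm mI hsurj) s m
    (fun i => r0 (g i)) (fun i => LamDatum.rLam O t hcomm mI r0 hr0 (g i))
    (fun i v => toLoc_r0 O t hcomm mI r0 hr0 (g i) v) I h w

end loc

/-! ### The comparison for `J1tw M m` -/

section inst

open TensorProduct
open Fermat.Agent.S30.Padic.TateModule
open Fermat.Agent.S43.Tw.Defs (J1tw)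
open Fermat.Agent.S43.JH.Tw Fermat.Agent.S43.JH.Part
open Fermat.Agent.S43.Rho.Feed
open Fermat.Agent.S53.Dictionary hiding GQ
open scoped IsMulCommutative

variable (M : ℕ) [NeZero M] (m : ℕ) (p : ℕ) [hp : Fact p.Prime] (H : Subgroup (ZMod M)ˣ)

/-- `T_p(J1tw M m) → e_H T_p(J1tw M m)` -/
theorem small_LamH (hH : ¬ p ∣ Nat.card H) (k : ℕ) {ι : Type*} (s : Finset ι) (mm : ι → ℤ)
    (g : ι → GQ)
    (h : ∀ v : TpTw M m p, (∑ i ∈ s, mm i • galTw M m p (g i)) v ∈
      (Ideal.span {(p : ℤ_[p])} ^ k) • (⊤ : Submodule ℤ_[p] (TpTw M m p)))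
    (w : LamH M m p H) :
    (∑ i ∈ s, mm i • galH M m p H (g i)) w ∈
      (Ideal.span {(p : ℤ_[p])} ^ k) • (⊤ : Submodule ℤ_[p] (LamH M m p H)) :=
  FlatCore.transfer_surjective (projH M m p H hH) (projH_surjective M m p H hH) s mm
    (fun i => galTw M m p (g i)) (fun i => galH M m p H (g i))
    (fun i v => projH_galTw M m p H hH (g i) v) _ h w

variable (O : Type) [CommRing O] [Algebra ℤ_[p] O]

/-- `e_H T_p(J1tw M m) → O ⊗ e_H T_p(J1tw M m)` -/
theorem small_LamO (hH : ¬ p ∣ Nat.card H) (I₀ : Ideal O) (hpI : (p : O) ∈ I₀) (k : ℕ)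
    {ι : Type*} (s : Finset ι) (mm : ι → ℤ) (g : ι → GQ)
    (h : ∀ v : TpTw M m p, (∑ i ∈ s, mm i • galTw M m p (g i)) v ∈
      (Ideal.span {(p : ℤ_[p])} ^ k) • (⊤ : Submodule ℤ_[p] (TpTw M m p)))
    (w : Inst.LamO M m p H O) :
    (∑ i ∈ s, mm i • Inst.rO M m p H O (g i)) w ∈
      (I₀ ^ k) • (⊤ : Submodule O (Inst.LamO M m p H O)) := by
  have h1 := FlatCore.transfer_bc O s mm (fun i => galH M m p H (g i)) _
    (small_LamH M m p H hH k s mm g h) w
  refine Submodule.smul_mono_left (FlatCore.map_span_pow_le O ?_ k) h1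
  rw [map_natCast]
  exact hpI

variable [IsLocalRing O] [IsNoetherianRing O] [IsAdicComplete (maximalIdeal O) O]
  {J : Type} (t : J → Module.End O (Inst.LamO M m p H O)) (hcomm : ∀ i j, Commute (t i) (t j))
  (mI : Ideal (MvPolynomial J O)) [mI.IsMaximal]
  (hr0 : ∀ g j, Commute (Inst.rO M m p H O g) (t j))

/-- **the comparison `hcmp` of `FlatCore.isFlatAt_rhoT`** for
`Λ = Loc mI (O ⊗ e_H T_p(J1tw M m))`: an integral combination of Galois elements that is `pⁿ`-small
on `T_p(J1tw M m)` is `𝔪ⁿ`-small on `Λ`. -/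
theorem hcmp (hM : 5 ≤ M) (hH : ¬ p ∣ Nat.card H) (hpO : (p : O) ∈ maximalIdeal O) (n : ℕ) :
    ∃ k : ℕ, ∀ {ι : Type} (s : Finset ι) (mm : ι → ℤ)
      (g : ι → (AlgebraicClosure ℚ ≃ₐ[ℚ] AlgebraicClosure ℚ)),
      (∀ v : Tp p (J1tw M m), (∑ i ∈ s, mm i • Tp.galoisHom (p := p) (J := J1tw M m)
        (AlgebraicClosure ℚ ≃ₐ[ℚ] AlgebraicClosure ℚ) (g i)) v ∈
          (Ideal.span {(p : ℤ_[p])} ^ k) • (⊤ : Submodule ℤ_[p] (Tp p (J1tw M m)))) →
      ∀ v : Loc mI (WithOps t hcomm),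
        (∑ i ∈ s, mm i • LamDatum.rLam O t hcomm mI (Inst.rO M m p H O) hr0 (g i)) v ∈
          (maximalIdeal O ^ n) • (⊤ : Submodule O (Loc mI (WithOps t hcomm))) := by
  have hfin : Module.Finite O (Inst.LamO M m p H O) := Inst.finite_LamO M m p H O hM
  refine ⟨n, fun s mm g h v => ?_⟩
  exact transfer_loc O t hcomm mI (Inst.rO M m p H O) hr0 (LamMain.mk_surjective O t hcomm mI) _
    s mm g (small_LamO M m p H O hH _ hpO n s mm g h) v

attribute [local instance] Glue.smulCommClassT Glue.algebraEnd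

/-- **`ρ_T` IS FLAT AT `p`**, for the Hecke algebra `T` of `Λ = Loc mI (O ⊗ e_H T_p(J1tw M m))`:
`5 ≤ M`, `p ∤ M`, `p ∤ |H|`, `p ∈ 𝔪_O`, `O` a complete Noetherian local ring, residue field of `T`
finite.  Hopf orders: the chief's `Flat1/Main.hord1`. -/
theorem isFlatAt_rhoT (hM : 5 ≤ M) (hpM : ¬ p ∣ M) (hH : ¬ p ∣ Nat.card H)
    (hpO : (p : O) ∈ maximalIdeal O) [Module.Finite O (Loc mI (WithOps t hcomm))]
    [IsMulCommutative ↥(T O mI (WithOps t hcomm))] [IsLocalRing ↥(T O mI (WithOps t hcomm))]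
    [IsLocalHom (algebraMap O ↥(T O mI (WithOps t hcomm)))]
    [Invertible (2 : ↥(T O mI (WithOps t hcomm)))]
    {Sg : Finset ℕ} {ε : GQ →* O}
    (h : Dens.Datum Sg (maximalIdeal O) (LamDatum.rLam O t hcomm mI (Inst.rO M m p H O) hr0) ε
      (T O mI (WithOps t hcomm)))
    {c g₀ h₀ : GQ}
    (hin : CH.Input (E := Module.End ↥(T O mI (WithOps t hcomm)) (Loc mI (WithOps t hcomm)))
      (Dens.rT h) (Dens.tT h) (Glue.dHom ε (T O mI (WithOps t hcomm))) c g₀ h₀)
    (hres : Finite (ResidueField ↥(T O mI (WithOps t hcomm)))) :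
    (Det.rhoT h hin).IsFlatAt p :=
  FlatCore.isFlatAt_rhoT h hin p hres (fun k => Fermat.Agent.S43.Flat1.Main.hfinJ1 hM m p k)
    (fun k => Fermat.Agent.S43.Flat1.Main.hord1 hM m p hpM k)
    (fun n => hcmp M m p H O t hcomm mI hr0 hM hH hpO n)

end inst

end Fermat.Agent.S43.Rho.Props.Flat

end
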