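/-
PROJECT R (S43), block L1 (architect helper22), brick Rho/Props/FlatSub (helper27):
`ρ_{T'}` IS FLAT AT `p` FOR EVERY COEFFICIENT SUBALGEBRA `T'`.

`Props/Flat.isFlatAt_rhoT` is stated for the full Hecke algebra `Lam.T O 𝔪 (WithOps t hcomm)`.  The
comparison `Flat.hcmp` never mentions the coefficient algebra, so the same statement holds for ANY
local commutative subalgebra `T'` of `End_O(Loc 𝔪 (O ⊗ e_H T_p(J1tw M m)))` carrying a density datum
(the trace subalgebra of the chief's flag #6494, or the full Hecke algebra with the diamonds of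
`LamInstD`), in the vocabulary of `Rho/MainGen` (`rhoG h hin`).
-/
import Mathlib
import Fermat.Agent.S43.Rho.Props.Flat
import Fermat.Agent.S43.Rho.MainGen

set_option autoImplicit false
set_option linter.unusedSectionVars false

noncomputable section

namespace Fermat.Agent.S43.Rho.Props.FlatSub

open IsLocalRing
open Fermat.Agent.S31.Core Fermat.Agent.S43.Rho
open Fermat.Agent.S43.Rho.Lam Fermat.Agent.S43.Hecke.PolyModule
open Fermat.Agent.S43.Rho.Feed
open Fermat.Agent.S53.Dictionary hiding GQ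
open scoped IsMulCommutative

variable (M : ℕ) [NeZero M] (m : ℕ) (p : ℕ) [hp : Fact p.Prime] (H : Subgroup (ZMod M)ˣ)
  (O : Type) [CommRing O] [Algebra ℤ_[p] O] [IsLocalRing O] [IsNoetherianRing O]
  [IsAdicComplete (maximalIdeal O) O]
  {J : Type} (t : J → Module.End O (Inst.LamO M m p H O)) (hcomm : ∀ i j, Commute (t i) (t j))
  (mI : Ideal (MvPolynomial J O)) [mI.IsMaximal]
  (hr0 : ∀ g j, Commute (Inst.rO M m p H O g) (t j))

/-- **`ρ_{T'}` IS FLAT AT `p`**, for every local commutative subalgebra `T'` of the endomorphisms of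
`Λ = Loc mI (O ⊗ e_H T_p(J1tw M m))` carrying a density datum: `5 ≤ M`, `p ∤ M`, `p ∤ |H|`,
`p ∈ 𝔪_O`, residue field of `T'` finite. -/
theorem isFlatAt_rhoG (hM : 5 ≤ M) (hpM : ¬ p ∣ M) (hH : ¬ p ∣ Nat.card H)
    (hpO : (p : O) ∈ maximalIdeal O) [Module.Finite O (Loc mI (WithOps t hcomm))]
    (T' : Subalgebra O (Module.End O (Loc mI (WithOps t hcomm))))
    [IsMulCommutative ↥T'] [IsLocalRing ↥T'] [IsLocalHom (algebraMap O ↥T')]
    [Invertible (2 : ↥T')] {Sg : Finset ℕ} {ε : GQ →* O}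
    (h : Dens.Datum Sg (maximalIdeal O) (LamDatum.rLam O t hcomm mI (Inst.rO M m p H O) hr0) ε T')
    {c g₀ h₀ : GQ} (hin : MainGen.InputG h c g₀ h₀) (hres : Finite (ResidueField ↥T')) :
    (MainGen.rhoG h hin).IsFlatAt p :=
  FlatCore.isFlatAt_rhoT h hin p hres (fun k => Fermat.Agent.S43.Flat1.Main.hfinJ1 hM m p k)
    (fun k => Fermat.Agent.S43.Flat1.Main.hord1 hM m p hpM k)
    (fun n => Flat.hcmp M m p H O t hcomm mI hr0 hM hH hpO n)

/-- the same with the finiteness of the residue field discharged -/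
theorem isFlatAt_rhoG' [Finite (ResidueField O)] (hM : 5 ≤ M) (hpM : ¬ p ∣ M)
    (hH : ¬ p ∣ Nat.card H) (hpO : (p : O) ∈ maximalIdeal O)
    [Module.Finite O (Loc mI (WithOps t hcomm))]
    (T' : Subalgebra O (Module.End O (Loc mI (WithOps t hcomm))))
    [IsMulCommutative ↥T'] [IsLocalRing ↥T'] [IsLocalHom (algebraMap O ↥T')]
    [Invertible (2 : ↥T')] {Sg : Finset ℕ} {ε : GQ →* O}
    (h : Dens.Datum Sg (maximalIdeal O) (LamDatum.rLam O t hcomm mI (Inst.rO M m p H O) hr0) ε T')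
    {c g₀ h₀ : GQ} (hin : MainGen.InputG h c g₀ h₀) : (MainGen.rhoG h hin).IsFlatAt p :=
  isFlatAt_rhoG M m p H O t hcomm mI hr0 hM hpM hH hpO T' h hin
    (MainGen.finite_residueField_sub T')

end Fermat.Agent.S43.Rho.Props.FlatSub

end
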