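/-
PROJECT R (row 37 by S43), block L1/L2, brick `Rho/Props/Type` (helper4; architect's cut #6236):
**THE INERTIAL TYPE OF `ρ_T` FROM THE GATE, BY TRANSPORT** (route (γ), chief #6210 (3)).

Setting of `Rho/CH` (helper8): `T` commutative with `2` invertible (nilpotents allowed), `E` a
`T`-algebra (`= End_T(Λ)`), `r : G →* E`, `h : CH.Input r t d c g₀ h₀`, `ρ = CH.rep h : G →* M₂(T)`.

* `cube_expand` : `(a - u)² (a - v) = a³ - (2u + v) a² + (u² + 2uv) a - u² v` in any `T`-algebra;
* `rep_cubic` : the cubic of the gate `(r s - u)² (r s - v) = 0` in `E` holds for `ρ s` in `M₂(T)`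
  (`CH.sum_rep_eq_zero`);
* `rep_conj` : the same for the tame relation `r φ * r s = r s ^ q * r φ`;
* `t_eq_of_cubic_of_tame` : **`t s = u + v`** from the cubic, `d s = 1`, `u v = 1`, `u ^ q = u`, the tame
  relation for `ρ` and `q² - 1` a non-zero-divisor (`Loc2/CubicTame`: NO reducedness);
* `charpoly_rep_of_cubic_of_tame` : `charpoly (ρ s) = (X - u)(X - v)` ; `t_sq_of_cubic_of_tame` :
  `t (s²) = u² + v²` (the sign-free display `⟨d⟩ + ⟨d⟩⁻¹ = t(s²)`, board #6213 (2));
* for `G = G_ℚ`: `t_eq_of_gate` : the tame relation is helper25's `RSide/LocalMat.conj_eq_pow`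
  (`ρ` adically continuous, residually trivial on the inertia group at `l ≠ p`).
-/
import Fermat.Agent.S43.Rho.CH
import Fermat.Agent.S43.Loc2.CubicTame
import Fermat.Agent.S43.RSide.LocalMat

set_option autoImplicit false
set_option linter.unusedSectionVars false

namespace Fermat.Agent.S43.Rho.Props.Type

open Matrix Polynomial
open Fermat.Agent.S43.Rho.CH

section Expand

variable {T : Type*} [CommRing T] {E : Type*} [Ring E] [Algebra T E]

/-- the cubic, expanded -/
theorem cube_expand (a : E) (u v : T) :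
    (a - u • (1 : E)) * (a - u • (1 : E)) * (a - v • (1 : E)) =
      a * a * a - (2 * u + v) • (a * a) + (u * u + 2 * u * v) • a - (u * u * v) • (1 : E) := by
  simp only [sub_mul, mul_sub, smul_mul_assoc, mul_smul_comm, one_mul, mul_one, smul_sub,
    smul_smul]
  module

end Expand

section Abstract

variable {T : Type*} [CommRing T] [Invertible (2 : T)] {E : Type*} [Ring E] [Algebra T E]
  {G : Type*} [Group G] {r : G →* E} {t : G → T} {d : G →* T} {c g₀ h₀ : G}

/-- a relation with four terms -/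
theorem rel4 (h : Input r t d c g₀ h₀) (m0 m1 m2 m3 : T) (g0 g1 g2 g3 : G)
    (hz : m0 • r g0 + m1 • r g1 + m2 • r g2 + m3 • r g3 = 0) :
    m0 • rep h g0 + m1 • rep h g1 + m2 • rep h g2 + m3 • rep h g3 = 0 := by
  have h1 := sum_rep_eq_zero h Finset.univ ![m0, m1, m2, m3] ![g0, g1, g2, g3]
    (by simpa [Fin.sum_univ_four, add_assoc] using hz)
  simpa [Fin.sum_univ_four, add_assoc] using h1

/-- a relation with two terms -/
theorem rel2 (h : Input r t d c g₀ h₀) (m0 m1 : T) (g0 g1 : G)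
    (hz : m0 • r g0 + m1 • r g1 = 0) : m0 • rep h g0 + m1 • rep h g1 = 0 := by
  have h1 := sum_rep_eq_zero h Finset.univ ![m0, m1] ![g0, g1]
    (by simpa [Fin.sum_univ_two] using hz)
  simpa [Fin.sum_univ_two] using h1

/-- **transport of the cubic of the gate** -/
theorem rep_cubic (h : Input r t d c g₀ h₀) (s : G) (u v : T)
    (hcube : (r s - u • (1 : E)) * (r s - u • (1 : E)) * (r s - v • (1 : E)) = 0) :
    (rep h s - u • (1 : Matrix (Fin 2) (Fin 2) T)) * (rep h s - u • (1 : Matrix (Fin 2) (Fin 2) T))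
      * (rep h s - v • (1 : Matrix (Fin 2) (Fin 2) T)) = 0 := by
  rw [cube_expand] at hcube ⊢
  have hz : (1 : T) • r (s * s * s) + (- (2 * u + v)) • r (s * s) + (u * u + 2 * u * v) • r s
      + (- (u * u * v)) • r 1 = 0 := by
    rw [map_mul, map_mul, map_one, one_smul, neg_smul, neg_smul, ← hcube]
    abel
  have h1 := rel4 h _ _ _ _ _ _ _ _ hz
  rw [map_mul, map_mul, map_one, one_smul, neg_smul, neg_smul] at h1
  rw [← h1]
  abel

/-- **transport of the tame relation** -/
theorem rep_conj (h : Input r t d c g₀ h₀) (φ s : G) (q : ℕ)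
    (hconj : r φ * r s = r s ^ q * r φ) : rep h φ * rep h s = rep h s ^ q * rep h φ := by
  have hz : (1 : T) • r (φ * s) + (-1 : T) • r (s ^ q * φ) = 0 := by
    rw [map_mul, map_mul, map_pow, one_smul, neg_smul, one_smul, hconj, add_neg_cancel]
  have h1 := rel2 h _ _ _ _ hz
  rw [map_mul, map_mul, map_pow, one_smul, neg_smul, one_smul, add_neg_eq_zero] at h1
  exact h1

/-- the tame relation gives `tr (ρ s ^ q) = tr (ρ s)` -/
theorem trace_pow_rep_of_conj (h : Input r t d c g₀ h₀) (φ s : G) (q : ℕ)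
    (hconj : rep h φ * rep h s = rep h s ^ q * rep h φ) :
    (rep h s ^ q).trace = (rep h s).trace := by
  have h1 : rep h φ * rep h φ⁻¹ = 1 := by rw [← map_mul, mul_inv_cancel, map_one]
  have h2 : rep h s ^ q = rep h φ * rep h s * rep h φ⁻¹ := by
    rw [hconj, mul_assoc, h1, mul_one]
  rw [h2, Matrix.trace_mul_comm, ← mul_assoc]
  have h3 : rep h φ⁻¹ * rep h φ = 1 := by rw [← map_mul, inv_mul_cancel, map_one]
  rw [h3, one_mul]

/-- **the trace of `ρ_T` on inertia from the gate** : `t s = u + v` -/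
theorem t_eq_of_cubic_of_tame (h : Input r t d c g₀ h₀) (s φ : G) (u v : T) (huv : u * v = 1)
    (hd : d s = 1)
    (hcube : (r s - u • (1 : E)) * (r s - u • (1 : E)) * (r s - v • (1 : E)) = 0) (q : ℕ)
    (huq : u ^ q = u) (hconj : rep h φ * rep h s = rep h s ^ q * rep h φ)
    (htf : ∀ x : T, ((q : T) ^ 2 - 1) * x = 0 → x = 0) : t s = u + v := by
  rw [← trace_rep h s]
  exact Fermat.Agent.S43.Loc2.CubicTame.trace_eq_of_cubic_of_tame_twisted (rep h s) u v huv
    (by rw [det_rep, hd]) (rep_cubic h s u v hcube) q huq (trace_pow_rep_of_conj h φ s q hconj) htf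

/-- **the characteristic polynomial of `ρ_T` on inertia from the gate** -/
theorem charpoly_rep_of_cubic_of_tame (h : Input r t d c g₀ h₀) (s φ : G) (u v : T)
    (huv : u * v = 1) (hd : d s = 1)
    (hcube : (r s - u • (1 : E)) * (r s - u • (1 : E)) * (r s - v • (1 : E)) = 0) (q : ℕ)
    (huq : u ^ q = u) (hconj : rep h φ * rep h s = rep h s ^ q * rep h φ)
    (htf : ∀ x : T, ((q : T) ^ 2 - 1) * x = 0 → x = 0) :
    (rep h s).charpoly = (X - C u) * (X - C v) := by
  nontriviality T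
  rw [Matrix.charpoly_fin_two, trace_rep, det_rep, hd,
    t_eq_of_cubic_of_tame h s φ u v huv hd hcube q huq hconj htf]
  have : (C u * C v : T[X]) = 1 := by rw [← C_mul, huv, C_1]
  simp only [map_add, map_one]
  linear_combination - this

/-- **the sign-free display** : `t (s²) = u² + v²` -/
theorem t_sq_of_cubic_of_tame (h : Input r t d c g₀ h₀) (s φ : G) (u v : T) (huv : u * v = 1)
    (hd : d s = 1)
    (hcube : (r s - u • (1 : E)) * (r s - u • (1 : E)) * (r s - v • (1 : E)) = 0) (q : ℕ)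
    (huq : u ^ q = u) (hconj : rep h φ * rep h s = rep h s ^ q * rep h φ)
    (htf : ∀ x : T, ((q : T) ^ 2 - 1) * x = 0 → x = 0) : t (s * s) = u * u + v * v := by
  have h1 := t_eq_of_cubic_of_tame h s φ u v huv hd hcube q huq hconj htf
  have h2 := Fermat.Agent.S43.Loc2.CubicTame.mul_self_eq (rep h s)
  have h3 := congrArg Matrix.trace h2
  rw [← map_mul, trace_sub, trace_smul, trace_smul, trace_one, Fintype.card_fin, trace_rep,
    trace_rep, det_rep, hd, h1, smul_eq_mul, smul_eq_mul] at h3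
  push_cast at h3
  linear_combination h3 + 2 * huv

end Abstract

section Galois

open IsLocalRing
open Fermat.Agent.CFT.Bridge Fermat.Agent.S43.RSide.LocalMat

variable {T : Type} [CommRing T] [IsLocalRing T] [Invertible (2 : T)] {E : Type*} [Ring E]
  [Algebra T E] {r : GQ →* E} {t : GQ → T} {d : GQ →* T} {c g₀ h₀ : GQ}

/-- **the trace of `ρ_T` on the inertia group at `l ≠ p` from the gate**, the tame relation being
helper25's `LocalMat.conj_eq_pow` -/
theorem t_eq_of_gate (h : Input r t d c g₀ h₀) {l p : ℕ} (hl : l.Prime) (hp : p.Prime)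
    (hpl : p ≠ l) (hpT : (p : T) ∈ maximalIdeal T)
    (hsep : ∀ x : T, (∀ n, x ∈ maximalIdeal T ^ n) → x = 0)
    {A : ValuationSubring Qbar} (hA : A.LiesOverPrime l) (hcont : AdicCont (rep h))
    (hres : ∀ s ∈ A.inertiaSubgroupIn ℚ, Cong (maximalIdeal T) (rep h s - 1))
    {φ : GQ} (hφ : A.IsFrobeniusAt φ l) {τ : GQ} (hτ : τ ∈ A.inertiaSubgroupIn ℚ)
    (u v : T) (huv : u * v = 1) (hd : d τ = 1)
    (hcube : (r τ - u • (1 : E)) * (r τ - u • (1 : E)) * (r τ - v • (1 : E)) = 0)
    (hul : u ^ l = u) (htf : ∀ x : T, ((l : T) ^ 2 - 1) * x = 0 → x = 0) : t τ = u + v :=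
  t_eq_of_cubic_of_tame h τ φ u v huv hd hcube l hul
    (conj_eq_pow hl hp hpl hpT hsep hA (rep h) hcont hres hφ hτ) htf

/-- **the characteristic polynomial of `ρ_T` on the inertia group at `l ≠ p` from the gate** -/
theorem charpoly_rep_of_gate (h : Input r t d c g₀ h₀) {l p : ℕ} (hl : l.Prime) (hp : p.Prime)
    (hpl : p ≠ l) (hpT : (p : T) ∈ maximalIdeal T)
    (hsep : ∀ x : T, (∀ n, x ∈ maximalIdeal T ^ n) → x = 0)
    {A : ValuationSubring Qbar} (hA : A.LiesOverPrime l) (hcont : AdicCont (rep h))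
    (hres : ∀ s ∈ A.inertiaSubgroupIn ℚ, Cong (maximalIdeal T) (rep h s - 1))
    {φ : GQ} (hφ : A.IsFrobeniusAt φ l) {τ : GQ} (hτ : τ ∈ A.inertiaSubgroupIn ℚ)
    (u v : T) (huv : u * v = 1) (hd : d τ = 1)
    (hcube : (r τ - u • (1 : E)) * (r τ - u • (1 : E)) * (r τ - v • (1 : E)) = 0)
    (hul : u ^ l = u) (htf : ∀ x : T, ((l : T) ^ 2 - 1) * x = 0 → x = 0) :
    (rep h τ).charpoly = (X - C u) * (X - C v) :=
  charpoly_rep_of_cubic_of_tame h τ φ u v huv hd hcube l hul
    (conj_eq_pow hl hp hpl hpT hsep hA (rep h) hcont hres hφ hτ) htf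

/-- **the sign-free display at `l ≠ p`** : `t (τ²) = u² + v²` -/
theorem t_sq_of_gate (h : Input r t d c g₀ h₀) {l p : ℕ} (hl : l.Prime) (hp : p.Prime)
    (hpl : p ≠ l) (hpT : (p : T) ∈ maximalIdeal T)
    (hsep : ∀ x : T, (∀ n, x ∈ maximalIdeal T ^ n) → x = 0)
    {A : ValuationSubring Qbar} (hA : A.LiesOverPrime l) (hcont : AdicCont (rep h))
    (hres : ∀ s ∈ A.inertiaSubgroupIn ℚ, Cong (maximalIdeal T) (rep h s - 1))
    {φ : GQ} (hφ : A.IsFrobeniusAt φ l) {τ : GQ} (hτ : τ ∈ A.inertiaSubgroupIn ℚ)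
    (u v : T) (huv : u * v = 1) (hd : d τ = 1)
    (hcube : (r τ - u • (1 : E)) * (r τ - u • (1 : E)) * (r τ - v • (1 : E)) = 0)
    (hul : u ^ l = u) (htf : ∀ x : T, ((l : T) ^ 2 - 1) * x = 0 → x = 0) :
    t (τ * τ) = u * u + v * v :=
  t_sq_of_cubic_of_tame h τ φ u v huv hd hcube l hul
    (conj_eq_pow hl hp hpl hpT hsep hA (rep h) hcont hres hφ hτ) htf

end Galois

end Fermat.Agent.S43.Rho.Props.Type
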