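/-
PROJECT R (S43), block L1 (route (gamma)), `Rho/Props/TypeRhoT.lean` (helper4):
THE LOCAL TYPE OF `ρ_T` AT `l ≠ p`, FOR THE `ρ_T` OF RECORD = helper15's `Rho/RhoTOfCH.rhoT`
(= main's `S53.Dictionary.ofMat (CH.rep h) _`), IN THE PRELUDE'S VOCABULARY.

`h : CH.Input r t d c g₀ h₀` over a local ring `T` (2 invertible).

* `charpoly_ofMat` : `charpoly ((S53.Dictionary.ofMat ρ hρ).ρ σ) = (ρ σ).charpoly` ;
* `charpoly_ofMat_of_gate`, `isUnipotentOnInertiaAt_ofMat`, `typeChi_ofMat`,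
  `trace_sq_ofMat_of_gate` : for `S53.Dictionary.ofMat (CH.rep h) hcont`, ANY proof
  `hcont : IsContMat T (CH.rep h)` (this is what NUM-T's `rR := CH.rep h` sees);
* `charpoly_rhoT_of_gate`, `isUnipotentOnInertiaAt_rhoT`, `typeChi_rhoT`, `trace_sq_rhoT_of_gate` :
  the same for `RhoTOfCH.rhoT h ι hι htc` literally.

The gate cubic `(r τ - u)² (r τ - v) = 0` in `E` is `Loc2/GateH.galH_cubic` pushed to `Lam`.
(`Rho/Props/TypeAdic.lean` is the same file for helper15's earlier `Rho/OfMat.ofMat`.)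
-/
import Fermat.Agent.S43.Rho.Props.Type
import Fermat.Agent.S43.Rho.RhoTOfCH
import Fermat.Agent.S43.RSide.Cond
import Fermat.Agent.Lib.FrobeniusExists

set_option autoImplicit false

noncomputable section

namespace Fermat.Agent.S43.Rho.Props.TypeRhoT

open Matrix Polynomial IsLocalRing
open Fermat.Agent.S43.Rho.CH
open Fermat.Agent.S31.Core (smallEnd)
open Fermat.Agent.S53.Dictionary (IsContMat ofMat)
open Fermat.Agent.CFT.Bridge Fermat.Agent.S43.RSide.LocalMat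
open Fermat.Agent.S43.Rho.RhoTOfCH (rhoT isContMat)

section dict

variable {T : Type} [CommRing T] [IsLocalRing T]

/-- main's `IsContMat` is helper25's `AdicCont` -/
theorem adicCont_of_isContMat {ρ : GQ →* Matrix (Fin 2) (Fin 2) T} (hρ : IsContMat T ρ) :
    AdicCont ρ := hρ

/-- the characteristic polynomial of `ofMat ρ` is the characteristic polynomial of the matrix -/
theorem charpoly_ofMat (ρ : GQ →* Matrix (Fin 2) (Fin 2) T) (hρ : IsContMat T ρ) (σ : GQ) :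
    LinearMap.charpoly ((ofMat ρ hρ).ρ σ) = (ρ σ).charpoly :=
  Matrix.charpoly_toLin' (ρ σ)

/-- the trace of `ofMat ρ` is the trace of the matrix -/
theorem trace_ofMat (ρ : GQ →* Matrix (Fin 2) (Fin 2) T) (hρ : IsContMat T ρ) (σ : GQ) :
    (ofMat ρ hρ).trace σ = (ρ σ).trace :=
  Matrix.trace_toLin'_eq (ρ σ)

end dict

variable {T : Type} [CommRing T] [IsLocalRing T] [Invertible (2 : T)] {E : Type*} [Ring E]
  [Algebra T E] {r : GQ →* E} {t : GQ → T} {d : GQ →* T} {c g₀ h₀ : GQ}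

/-! ### For `S53.Dictionary.ofMat (CH.rep h) hcont` -/

/-- **the characteristic polynomial of `ρ_T(τ)`, `τ` in an inertia group at `l ≠ p`** -/
theorem charpoly_ofMat_of_gate (h : Input r t d c g₀ h₀) (hcont : IsContMat T (rep h))
    {l p : ℕ} (hl : l.Prime) (hp : p.Prime) (hpl : p ≠ l) (hpT : (p : T) ∈ maximalIdeal T)
    (hsep : ∀ x : T, (∀ n, x ∈ maximalIdeal T ^ n) → x = 0)
    {A : ValuationSubring Qbar} (hA : A.LiesOverPrime l)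
    (hres : ∀ s ∈ A.inertiaSubgroupIn ℚ, Cong (maximalIdeal T) (rep h s - 1))
    {τ : GQ} (hτ : τ ∈ A.inertiaSubgroupIn ℚ)
    (u v : T) (huv : u * v = 1) (hd : d τ = 1)
    (hcube : (r τ - u • (1 : E)) * (r τ - u • (1 : E)) * (r τ - v • (1 : E)) = 0)
    (hul : u ^ l = u) (htf : ∀ x : T, ((l : T) ^ 2 - 1) * x = 0 → x = 0) :
    LinearMap.charpoly ((ofMat (rep h) hcont).ρ τ) = (X - C u) * (X - C v) := by
  obtain ⟨φ, hφ⟩ := Fermat.Agent.Lib.FrobeniusExists.exists_isFrobeniusAt_algebraicClosure A hl hA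
  rw [charpoly_ofMat]
  exact Type.charpoly_rep_of_gate h hl hp hpl hpT hsep hA (adicCont_of_isContMat hcont)
    hres hφ hτ u v huv hd hcube hul htf

/-- **`ρ_T` is unipotent on inertia at `l`** when the gate cubic is `(r τ - 1)³ = 0` (trivial
diamond: `l ∈ S_min`, `l ≠ p`) -/
theorem isUnipotentOnInertiaAt_ofMat (h : Input r t d c g₀ h₀) (hcont : IsContMat T (rep h))
    {l p : ℕ} (hl : l.Prime) (hp : p.Prime) (hpl : p ≠ l) (hpT : (p : T) ∈ maximalIdeal T)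
    (hsep : ∀ x : T, (∀ n, x ∈ maximalIdeal T ^ n) → x = 0)
    (hres : ∀ A : ValuationSubring Qbar, A.LiesOverPrime l →
      ∀ s ∈ A.inertiaSubgroupIn ℚ, Cong (maximalIdeal T) (rep h s - 1))
    (hd : ∀ A : ValuationSubring Qbar, A.LiesOverPrime l →
      ∀ τ ∈ A.inertiaSubgroupIn ℚ, d τ = 1)
    (hcube : ∀ A : ValuationSubring Qbar, A.LiesOverPrime l →
      ∀ τ ∈ A.inertiaSubgroupIn ℚ, (r τ - 1) * (r τ - 1) * (r τ - 1) = 0)
    (htf : ∀ x : T, ((l : T) ^ 2 - 1) * x = 0 → x = 0) :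
    (ofMat (rep h) hcont).IsUnipotentOnInertiaAt l := by
  intro A hA τ hτ
  have hc : (r τ - (1 : T) • (1 : E)) * (r τ - (1 : T) • (1 : E)) *
      (r τ - (1 : T) • (1 : E)) = 0 := by
    rw [one_smul]
    exact hcube A hA τ hτ
  have h1 := charpoly_ofMat_of_gate h hcont hl hp hpl hpT hsep hA (hres A hA) hτ 1 1 (one_mul 1)
    (hd A hA τ hτ) hc (one_pow l) htf
  rw [h1, map_one, sq]

/-- **`ρ_T` has inertial type `{χ_l, χ_l⁻¹}` at `l`** (helper21's `TypeChi`) when the gate cubic is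
`(r τ - χ_l(τ))² (r τ - χ_l(τ)⁻¹) = 0` -/
theorem typeChi_ofMat {𝒪 : Type} [CommRing 𝒪] [Algebra 𝒪 T]
    (χ : ℕ → Fermat.Agent.S43.RSide.Cond.GalQ →* 𝒪ˣ)
    (h : Input r t d c g₀ h₀) (hcont : IsContMat T (rep h))
    {l p : ℕ} (hl : l.Prime) (hp : p.Prime) (hpl : p ≠ l) (hpT : (p : T) ∈ maximalIdeal T)
    (hsep : ∀ x : T, (∀ n, x ∈ maximalIdeal T ^ n) → x = 0)
    (hres : ∀ A : ValuationSubring Qbar, A.LiesOverPrime l →
      ∀ s ∈ A.inertiaSubgroupIn ℚ, Cong (maximalIdeal T) (rep h s - 1))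
    (hd : ∀ A : ValuationSubring Qbar, A.LiesOverPrime l →
      ∀ τ ∈ A.inertiaSubgroupIn ℚ, d τ = 1)
    (hχ : ∀ A : ValuationSubring Qbar, A.LiesOverPrime l →
      ∀ τ ∈ A.inertiaSubgroupIn ℚ, (χ l τ) ^ l = χ l τ)
    (hcube : ∀ A : ValuationSubring Qbar, A.LiesOverPrime l →
      ∀ τ ∈ A.inertiaSubgroupIn ℚ,
        (r τ - algebraMap 𝒪 T ((χ l τ : 𝒪ˣ) : 𝒪) • (1 : E)) *
          (r τ - algebraMap 𝒪 T ((χ l τ : 𝒪ˣ) : 𝒪) • (1 : E)) *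
            (r τ - algebraMap 𝒪 T (((χ l τ)⁻¹ : 𝒪ˣ) : 𝒪) • (1 : E)) = 0)
    (htf : ∀ x : T, ((l : T) ^ 2 - 1) * x = 0 → x = 0) :
    Fermat.Agent.S43.RSide.Cond.TypeChi χ l (ofMat (rep h) hcont) := by
  intro A hA τ hτ
  have huv : algebraMap 𝒪 T ((χ l τ : 𝒪ˣ) : 𝒪) * algebraMap 𝒪 T (((χ l τ)⁻¹ : 𝒪ˣ) : 𝒪) = 1 := by
    rw [← map_mul, ← Units.val_mul, mul_inv_cancel, Units.val_one, map_one]
  have hul : algebraMap 𝒪 T ((χ l τ : 𝒪ˣ) : 𝒪) ^ l = algebraMap 𝒪 T ((χ l τ : 𝒪ˣ) : 𝒪) := by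
    rw [← map_pow, ← Units.val_pow_eq_pow_val, hχ A hA τ hτ]
  exact charpoly_ofMat_of_gate h hcont hl hp hpl hpT hsep hA (hres A hA) hτ _ _ huv
    (hd A hA τ hτ) (hcube A hA τ hτ) hul htf

/-- **the sign-free display**: `tr ρ_T(τ²) = u² + v²` -/
theorem trace_sq_ofMat_of_gate (h : Input r t d c g₀ h₀) (hcont : IsContMat T (rep h))
    {l p : ℕ} (hl : l.Prime) (hp : p.Prime) (hpl : p ≠ l) (hpT : (p : T) ∈ maximalIdeal T)
    (hsep : ∀ x : T, (∀ n, x ∈ maximalIdeal T ^ n) → x = 0)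
    {A : ValuationSubring Qbar} (hA : A.LiesOverPrime l)
    (hres : ∀ s ∈ A.inertiaSubgroupIn ℚ, Cong (maximalIdeal T) (rep h s - 1))
    {τ : GQ} (hτ : τ ∈ A.inertiaSubgroupIn ℚ)
    (u v : T) (huv : u * v = 1) (hd : d τ = 1)
    (hcube : (r τ - u • (1 : E)) * (r τ - u • (1 : E)) * (r τ - v • (1 : E)) = 0)
    (hul : u ^ l = u) (htf : ∀ x : T, ((l : T) ^ 2 - 1) * x = 0 → x = 0) :
    (ofMat (rep h) hcont).trace (τ * τ) = u * u + v * v := by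
  obtain ⟨φ, hφ⟩ := Fermat.Agent.Lib.FrobeniusExists.exists_isFrobeniusAt_algebraicClosure A hl hA
  rw [trace_ofMat, trace_rep]
  exact Type.t_sq_of_gate h hl hp hpl hpT hsep hA (adicCont_of_isContMat hcont)
    hres hφ hτ u v huv hd hcube hul htf

/-! ### For `RhoTOfCH.rhoT h ι hι htc` -/

section rhoT

variable {𝒪 : Type*} [CommRing 𝒪] [IsLocalRing 𝒪] [IsNoetherianRing 𝒪]
  {Lam : Type*} [AddCommGroup Lam] [Module 𝒪 Lam] [Module.Finite 𝒪 Lam]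
  [Algebra 𝒪 T] [IsLocalHom (algebraMap 𝒪 T)]
  (h : Input r t d c g₀ h₀)
  (ι : T →ₐ[𝒪] Module.End 𝒪 Lam) (hι : Function.Injective ι)
  (htc : ∀ n : ℕ, ∃ L : IntermediateField ℚ Qbar, FiniteDimensional ℚ L ∧
    ∀ u : GQ, (∀ x ∈ L, u x = x) → ∀ g : GQ,
      ι (t (u * g) - t g) ∈ smallEnd (V := Lam) (maximalIdeal 𝒪 ^ n))

theorem charpoly_rhoT_of_gate
    {l p : ℕ} (hl : l.Prime) (hp : p.Prime) (hpl : p ≠ l) (hpT : (p : T) ∈ maximalIdeal T)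
    (hsep : ∀ x : T, (∀ n, x ∈ maximalIdeal T ^ n) → x = 0)
    {A : ValuationSubring Qbar} (hA : A.LiesOverPrime l)
    (hres : ∀ s ∈ A.inertiaSubgroupIn ℚ, Cong (maximalIdeal T) (rep h s - 1))
    {τ : GQ} (hτ : τ ∈ A.inertiaSubgroupIn ℚ)
    (u v : T) (huv : u * v = 1) (hd : d τ = 1)
    (hcube : (r τ - u • (1 : E)) * (r τ - u • (1 : E)) * (r τ - v • (1 : E)) = 0)
    (hul : u ^ l = u) (htf : ∀ x : T, ((l : T) ^ 2 - 1) * x = 0 → x = 0) :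
    LinearMap.charpoly ((rhoT h ι hι htc).ρ τ) = (X - C u) * (X - C v) :=
  charpoly_ofMat_of_gate h (isContMat h ι hι htc) hl hp hpl hpT hsep hA hres hτ u v huv hd hcube
    hul htf

theorem isUnipotentOnInertiaAt_rhoT
    {l p : ℕ} (hl : l.Prime) (hp : p.Prime) (hpl : p ≠ l) (hpT : (p : T) ∈ maximalIdeal T)
    (hsep : ∀ x : T, (∀ n, x ∈ maximalIdeal T ^ n) → x = 0)
    (hres : ∀ A : ValuationSubring Qbar, A.LiesOverPrime l →
      ∀ s ∈ A.inertiaSubgroupIn ℚ, Cong (maximalIdeal T) (rep h s - 1))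
    (hd : ∀ A : ValuationSubring Qbar, A.LiesOverPrime l →
      ∀ τ ∈ A.inertiaSubgroupIn ℚ, d τ = 1)
    (hcube : ∀ A : ValuationSubring Qbar, A.LiesOverPrime l →
      ∀ τ ∈ A.inertiaSubgroupIn ℚ, (r τ - 1) * (r τ - 1) * (r τ - 1) = 0)
    (htf : ∀ x : T, ((l : T) ^ 2 - 1) * x = 0 → x = 0) :
    (rhoT h ι hι htc).IsUnipotentOnInertiaAt l :=
  isUnipotentOnInertiaAt_ofMat h (isContMat h ι hι htc) hl hp hpl hpT hsep hres hd hcube htf

theorem typeChi_rhoT {𝒪' : Type} [CommRing 𝒪'] [Algebra 𝒪' T]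
    (χ : ℕ → Fermat.Agent.S43.RSide.Cond.GalQ →* 𝒪'ˣ)
    {l p : ℕ} (hl : l.Prime) (hp : p.Prime) (hpl : p ≠ l) (hpT : (p : T) ∈ maximalIdeal T)
    (hsep : ∀ x : T, (∀ n, x ∈ maximalIdeal T ^ n) → x = 0)
    (hres : ∀ A : ValuationSubring Qbar, A.LiesOverPrime l →
      ∀ s ∈ A.inertiaSubgroupIn ℚ, Cong (maximalIdeal T) (rep h s - 1))
    (hd : ∀ A : ValuationSubring Qbar, A.LiesOverPrime l →
      ∀ τ ∈ A.inertiaSubgroupIn ℚ, d τ = 1)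
    (hχ : ∀ A : ValuationSubring Qbar, A.LiesOverPrime l →
      ∀ τ ∈ A.inertiaSubgroupIn ℚ, (χ l τ) ^ l = χ l τ)
    (hcube : ∀ A : ValuationSubring Qbar, A.LiesOverPrime l →
      ∀ τ ∈ A.inertiaSubgroupIn ℚ,
        (r τ - algebraMap 𝒪' T ((χ l τ : 𝒪'ˣ) : 𝒪') • (1 : E)) *
          (r τ - algebraMap 𝒪' T ((χ l τ : 𝒪'ˣ) : 𝒪') • (1 : E)) *
            (r τ - algebraMap 𝒪' T (((χ l τ)⁻¹ : 𝒪'ˣ) : 𝒪') • (1 : E)) = 0)
    (htf : ∀ x : T, ((l : T) ^ 2 - 1) * x = 0 → x = 0) :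
    Fermat.Agent.S43.RSide.Cond.TypeChi χ l (rhoT h ι hι htc) :=
  typeChi_ofMat χ h (isContMat h ι hι htc) hl hp hpl hpT hsep hres hd hχ hcube htf

theorem trace_sq_rhoT_of_gate
    {l p : ℕ} (hl : l.Prime) (hp : p.Prime) (hpl : p ≠ l) (hpT : (p : T) ∈ maximalIdeal T)
    (hsep : ∀ x : T, (∀ n, x ∈ maximalIdeal T ^ n) → x = 0)
    {A : ValuationSubring Qbar} (hA : A.LiesOverPrime l)
    (hres : ∀ s ∈ A.inertiaSubgroupIn ℚ, Cong (maximalIdeal T) (rep h s - 1))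
    {τ : GQ} (hτ : τ ∈ A.inertiaSubgroupIn ℚ)
    (u v : T) (huv : u * v = 1) (hd : d τ = 1)
    (hcube : (r τ - u • (1 : E)) * (r τ - u • (1 : E)) * (r τ - v • (1 : E)) = 0)
    (hul : u ^ l = u) (htf : ∀ x : T, ((l : T) ^ 2 - 1) * x = 0 → x = 0) :
    (rhoT h ι hι htc).trace (τ * τ) = u * u + v * v :=
  trace_sq_ofMat_of_gate h (isContMat h ι hι htc) hl hp hpl hpT hsep hA hres hτ u v huv hd hcube
    hul htf

end rhoT

end Fermat.Agent.S43.Rho.Props.TypeRhoT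

end
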