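import Fermat.Agent.S43.Rho.Dens

/-!
# PROJECT R (S43), block L1, Props: THE JOINT TRACE COMPATIBILITY OF TWO DENSITY DATA

Two density data `h₁ : Dens.Datum Sg₁ I₁ r₁ ε₁ T₁` on `Λ₁ / R₁`, `h₂ : Dens.Datum Sg₂ I₂ r₂ ε₂ T₂` on
`Λ₂ / R₂` (in the application: the level-`Q` Tate modules on the `1`-side and on the `χ`-side), and
two additive maps `q₁ : Λ₁ →+ Nb`, `q₂ : Λ₂ →+ Nb` killing `I₁ Λ₁`, `I₂ Λ₂` (the common reduction).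

* `approx_of_frob` : the inner half of `Dens.exists_approx_frob`, without the density call;
* `exists_joint_approx_frob` : ONE prime `ℓ`, ONE Frobenius element `τ`, ONE exponent `j` with
  `t₁(g) ≡ V_j(t₁(τ), ℓ)` modulo `I₁ ^ n₁` AND `t₂(g) ≡ V_j(t₂(τ), ℓ)` modulo `I₂ ^ n₂`;
* `CompatEnd q₁ q₂ f₁ f₂` : `q₁ x₁ = q₂ x₂ → q₁ (f₁ x₁) = q₂ (f₂ x₂)`; closed under `+ - *`, the
  natural numbers and the Lucas polynomials (`CompatEnd.of_lucas`);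
* `compat_tr` : if the traces of the Frobenius elements (the Hecke operators `T_ℓ`) are compatible,
  then `t₁(g)` and `t₂(g)` are compatible for EVERY `g`.
-/

set_option autoImplicit false
set_option linter.unusedSectionVars false
set_option linter.style.haveILetI false

noncomputable section

namespace Fermat.Agent.S43.Rho.Props.Joint

open Fermat.Agent.S31.Core Fermat.Agent.S43.Rho
open Fermat.Agent.S30.Algebra.DetGalois (inv_mul_apply_eq)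

/-! ### The approximation, without the density call -/

section approx

variable {R₀ : Type*} [CommRing R₀] {Λ : Type*} [AddCommGroup Λ] [Module R₀ Λ]
  {Sg : Finset ℕ} {I₀ : Ideal R₀} {r : GQ →* Module.End R₀ Λ} {ε : GQ →* R₀}
  {T : Subalgebra R₀ (Module.End R₀ Λ)}

/-- **the inner half of `Dens.exists_approx_frob`**: if `L` contains the level fields of `r` and
`ε` at depth `n`, `τ` is a Frobenius element at `ℓ ∉ Sg`, `τ = g ^ k` and `(g ^ k) ^ j = g` on `L`,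
then `t(g) ≡ V_j(t(τ), ℓ)` modulo `I₀ ^ n`. -/
theorem approx_of_frob (h : Dens.Datum Sg I₀ r ε T) {n : ℕ} {L : IntermediateField ℚ Qbar}
    (hr : ∀ u : GQ, (∀ x ∈ L, u x = x) → ∀ v : Λ, r u v - v ∈ (I₀ ^ n) • (⊤ : Submodule R₀ Λ))
    (hε : ∀ u : GQ, (∀ x ∈ L, u x = x) → ε u - 1 ∈ I₀ ^ n)
    {ℓ : ℕ} (hℓ : ℓ.Prime) (hℓS : ℓ ∉ Sg) {A : ValuationSubring Qbar} (hA : A.LiesOverPrime ℓ)
    {τ : GQ} (hτ : A.IsFrobeniusAt τ ℓ) {g : GQ} {k j : ℕ}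
    (h1 : ∀ x ∈ L, τ x = (g ^ k) x) (h2 : ∀ x ∈ L, ((g ^ k) ^ j) x = g x) :
    Dens.tr r ε g - lucas (Dens.tr r ε τ) ((ℓ : ℕ) : Module.End R₀ Λ) j ∈
      smallEnd (V := Λ) (I₀ ^ n) := by
  set u₁ : GQ := (g ^ k)⁻¹ * τ with hu₁
  set u₂ : GQ := ((g ^ k) ^ j)⁻¹ * g with hu₂
  have hu₁L : ∀ x ∈ L, u₁ x = x := fun x hx => inv_mul_apply_eq _ _ x (h1 x hx)
  have hu₂L : ∀ x ∈ L, u₂ x = x := fun x hx => inv_mul_apply_eq _ _ x (h2 x hx).symm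
  have hτeq : τ = g ^ k * u₁ := by rw [hu₁, mul_inv_cancel_left]
  have hgeq : g = (g ^ k) ^ j * u₂ := by rw [hu₂, mul_inv_cancel_left]
  have hsm : ∀ u : GQ, (∀ x ∈ L, u x = x) →
      r u - 1 ∈ (smallEnd (V := Λ) (I₀ ^ n)).toAddSubgroup := fun u hu v => by
    rw [LinearMap.sub_apply, Module.End.one_apply]
    exact hr u hu v
  have hsmε : ∀ u : GQ, (∀ x ∈ L, u x = x) → ε u - 1 ∈ (I₀ ^ n).toAddSubgroup :=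
    fun u hu => hε u hu
  have c1 : r g - r τ ^ j ∈ (smallEnd (V := Λ) (I₀ ^ n)).toAddSubgroup :=
    (isTwoSided_smallEnd _).hom_sub_pow r g τ u₁ u₂ k j hτeq hgeq (hsm u₁ hu₁L) (hsm u₂ hu₂L)
  have c3 : ε g - ε τ ^ j ∈ (I₀ ^ n).toAddSubgroup :=
    (isTwoSided_ideal _).hom_sub_pow ε g τ u₁ u₂ k j hτeq hgeq (hsmε u₁ hu₁L) (hsmε u₂ hu₂L)
  have hετ := h.frob_ε ℓ hℓ hℓS A hA τ hτ
  rw [hετ] at c3
  have haT := Dens.tr_frob_mem h hℓ hℓS hA hτ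
  have hes := Dens.es_tr (r := r) (ε := ε) τ hετ
  set a := Dens.tr r ε τ with ha
  have hex := pow_mul_pow_sub_lucas_of_commute (r τ) a ℓ (h.comm a haT τ) hes j
  have hcast : ((ℓ : ℕ) : Module.End R₀ Λ) ^ j = ((ℓ : R₀) ^ j) • (1 : Module.End R₀ Λ) := by
    rw [← Algebra.algebraMap_eq_smul_one, map_pow, map_natCast]
  set x := r τ ^ j with hx
  set B := lucas a ((ℓ : ℕ) : Module.End R₀ Λ) j with hB
  rw [hcast] at hex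
  have hS := isTwoSided_smallEnd (V := Λ) (I₀ ^ n)
  have t1 : r g * r g - x * x ∈ (smallEnd (V := Λ) (I₀ ^ n)).toAddSubgroup :=
    hS.mul_sub_mul c1 c1
  have t2 : B * (r g - x) ∈ (smallEnd (V := Λ) (I₀ ^ n)).toAddSubgroup := hS.mul_left B c1
  have t3 : (ε g - (ℓ : R₀) ^ j) • (1 : Module.End R₀ Λ) ∈
      (smallEnd (V := Λ) (I₀ ^ n)).toAddSubgroup := smul_one_mem_smallEnd c3
  have hquad : r g * r g - B * r g + ε g • (1 : Module.End R₀ Λ) ∈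
      (smallEnd (V := Λ) (I₀ ^ n)).toAddSubgroup := by
    have : r g * r g - B * r g + ε g • (1 : Module.End R₀ Λ) =
        (r g * r g - x * x) - B * (r g - x) + (ε g - (ℓ : R₀) ^ j) • (1 : Module.End R₀ Λ)
          + (x * x - B * x + ((ℓ : R₀) ^ j) • (1 : Module.End R₀ Λ)) := by
      rw [mul_sub, sub_smul]
      abel
    rw [this, hex, add_zero]
    exact AddSubgroup.add_mem _ (AddSubgroup.sub_mem _ t1 t2) t3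
  have hdiv : Dens.tr r ε g - B =
      (r g * r g - B * r g + ε g • (1 : Module.End R₀ Λ)) * r g⁻¹ := by
    rw [add_mul, sub_mul, mul_assoc, mul_assoc, Dens.r_mul_inv, mul_one, mul_one, smul_mul_assoc,
      one_mul, Dens.tr]
    abel
  rw [hdiv]
  exact hS.mul_right _ hquad

end approx

/-! ### The joint approximation -/

section joint

variable {R₁ : Type*} [CommRing R₁] {Λ₁ : Type*} [AddCommGroup Λ₁] [Module R₁ Λ₁]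
  {Sg₁ : Finset ℕ} {I₁ : Ideal R₁} {r₁ : GQ →* Module.End R₁ Λ₁} {ε₁ : GQ →* R₁}
  {T₁ : Subalgebra R₁ (Module.End R₁ Λ₁)}
  {R₂ : Type*} [CommRing R₂] {Λ₂ : Type*} [AddCommGroup Λ₂] [Module R₂ Λ₂]
  {Sg₂ : Finset ℕ} {I₂ : Ideal R₂} {r₂ : GQ →* Module.End R₂ Λ₂} {ε₂ : GQ →* R₂}
  {T₂ : Subalgebra R₂ (Module.End R₂ Λ₂)}

/-- **the joint approximation**: the same prime, the same Frobenius element and the same exponent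
for the two data. -/
theorem exists_joint_approx_frob (h₁ : Dens.Datum Sg₁ I₁ r₁ ε₁ T₁)
    (h₂ : Dens.Datum Sg₂ I₂ r₂ ε₂ T₂) (g : GQ) (n₁ n₂ : ℕ) :
    ∃ (ℓ : ℕ) (A : ValuationSubring Qbar) (τ : GQ) (j : ℕ), ℓ.Prime ∧ ℓ ∉ Sg₁ ∧ ℓ ∉ Sg₂ ∧
      A.LiesOverPrime ℓ ∧ A.IsFrobeniusAt τ ℓ ∧
      Dens.tr r₁ ε₁ g - lucas (Dens.tr r₁ ε₁ τ) ((ℓ : ℕ) : Module.End R₁ Λ₁) j ∈
        smallEnd (V := Λ₁) (I₁ ^ n₁) ∧
      Dens.tr r₂ ε₂ g - lucas (Dens.tr r₂ ε₂ τ) ((ℓ : ℕ) : Module.End R₂ Λ₂) j ∈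
        smallEnd (V := Λ₂) (I₂ ^ n₂) := by
  classical
  obtain ⟨Lr₁, hLr₁, hr₁⟩ := h₁.cont_r n₁
  obtain ⟨Lε₁, hLε₁, hε₁⟩ := h₁.cont_ε n₁
  obtain ⟨Lr₂, hLr₂, hr₂⟩ := h₂.cont_r n₂
  obtain ⟨Lε₂, hLε₂, hε₂⟩ := h₂.cont_ε n₂
  haveI := hLr₁
  haveI := hLε₁
  haveI := hLr₂
  haveI := hLε₂
  haveI : FiniteDimensional ℚ ↥(Lr₁ ⊔ Lε₁) := IntermediateField.finiteDimensional_sup _ _
  haveI : FiniteDimensional ℚ ↥(Lr₂ ⊔ Lε₂) := IntermediateField.finiteDimensional_sup _ _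
  obtain ⟨ℓ, hℓ, hℓS, A, τ, k, j, hA, hτ, h1, h2⟩ :=
    Dens.density (Sg₁ ∪ Sg₂) ((Lr₁ ⊔ Lε₁) ⊔ (Lr₂ ⊔ Lε₂))
      (IntermediateField.finiteDimensional_sup _ _) g
  have hℓS₁ : ℓ ∉ Sg₁ := fun hm => hℓS (Finset.mem_union_left _ hm)
  have hℓS₂ : ℓ ∉ Sg₂ := fun hm => hℓS (Finset.mem_union_right _ hm)
  have hLr₁' : Lr₁ ≤ (Lr₁ ⊔ Lε₁) ⊔ (Lr₂ ⊔ Lε₂) := le_sup_of_le_left le_sup_left
  have hLε₁' : Lε₁ ≤ (Lr₁ ⊔ Lε₁) ⊔ (Lr₂ ⊔ Lε₂) := le_sup_of_le_left le_sup_right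
  have hLr₂' : Lr₂ ≤ (Lr₁ ⊔ Lε₁) ⊔ (Lr₂ ⊔ Lε₂) := le_sup_of_le_right le_sup_left
  have hLε₂' : Lε₂ ≤ (Lr₁ ⊔ Lε₁) ⊔ (Lr₂ ⊔ Lε₂) := le_sup_of_le_right le_sup_right
  refine ⟨ℓ, A, τ, j, hℓ, hℓS₁, hℓS₂, hA, hτ, ?_, ?_⟩
  · exact approx_of_frob h₁ (L := (Lr₁ ⊔ Lε₁) ⊔ (Lr₂ ⊔ Lε₂))
      (fun u hu => hr₁ u (fun x hx => hu x (hLr₁' hx)))
      (fun u hu => hε₁ u (fun x hx => hu x (hLε₁' hx))) hℓ hℓS₁ hA hτ h1 h2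
  · exact approx_of_frob h₂ (L := (Lr₁ ⊔ Lε₁) ⊔ (Lr₂ ⊔ Lε₂))
      (fun u hu => hr₂ u (fun x hx => hu x (hLr₂' hx)))
      (fun u hu => hε₂ u (fun x hx => hu x (hLε₂' hx))) hℓ hℓS₂ hA hτ h1 h2

end joint

/-! ### Compatible endomorphisms -/

section compat

variable {R₁ : Type*} [CommRing R₁] {Λ₁ : Type*} [AddCommGroup Λ₁] [Module R₁ Λ₁]
  {R₂ : Type*} [CommRing R₂] {Λ₂ : Type*} [AddCommGroup Λ₂] [Module R₂ Λ₂]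
  {Nb : Type*} [AddCommGroup Nb] (q₁ : Λ₁ →+ Nb) (q₂ : Λ₂ →+ Nb)

/-- `f₁` and `f₂` are compatible with the two reductions `q₁`, `q₂` -/
def CompatEnd (f₁ : Module.End R₁ Λ₁) (f₂ : Module.End R₂ Λ₂) : Prop :=
  ∀ x₁ x₂, q₁ x₁ = q₂ x₂ → q₁ (f₁ x₁) = q₂ (f₂ x₂)

variable {q₁ q₂}

theorem CompatEnd.add {f₁ g₁ : Module.End R₁ Λ₁} {f₂ g₂ : Module.End R₂ Λ₂}
    (hf : CompatEnd q₁ q₂ f₁ f₂) (hg : CompatEnd q₁ q₂ g₁ g₂) :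
    CompatEnd q₁ q₂ (f₁ + g₁) (f₂ + g₂) := fun x₁ x₂ hx => by
  rw [LinearMap.add_apply, LinearMap.add_apply, map_add, map_add, hf x₁ x₂ hx, hg x₁ x₂ hx]

theorem CompatEnd.sub {f₁ g₁ : Module.End R₁ Λ₁} {f₂ g₂ : Module.End R₂ Λ₂}
    (hf : CompatEnd q₁ q₂ f₁ f₂) (hg : CompatEnd q₁ q₂ g₁ g₂) :
    CompatEnd q₁ q₂ (f₁ - g₁) (f₂ - g₂) := fun x₁ x₂ hx => by
  rw [LinearMap.sub_apply, LinearMap.sub_apply, map_sub, map_sub, hf x₁ x₂ hx, hg x₁ x₂ hx]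

theorem CompatEnd.mul {f₁ g₁ : Module.End R₁ Λ₁} {f₂ g₂ : Module.End R₂ Λ₂}
    (hf : CompatEnd q₁ q₂ f₁ f₂) (hg : CompatEnd q₁ q₂ g₁ g₂) :
    CompatEnd q₁ q₂ (f₁ * g₁) (f₂ * g₂) := fun x₁ x₂ hx => by
  rw [Module.End.mul_apply, Module.End.mul_apply]
  exact hf _ _ (hg x₁ x₂ hx)

theorem CompatEnd.one : CompatEnd q₁ q₂ (1 : Module.End R₁ Λ₁) (1 : Module.End R₂ Λ₂) :=
  fun _ _ hx => hx

theorem CompatEnd.natCast (n : ℕ) :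
    CompatEnd q₁ q₂ ((n : ℕ) : Module.End R₁ Λ₁) ((n : ℕ) : Module.End R₂ Λ₂) := by
  induction n with
  | zero =>
    intro x₁ x₂ _
    rw [Nat.cast_zero, Nat.cast_zero, LinearMap.zero_apply, LinearMap.zero_apply, map_zero,
      map_zero]
  | succ n ih =>
    rw [Nat.cast_succ, Nat.cast_succ]
    exact ih.add CompatEnd.one

theorem CompatEnd.ofNat_two :
    CompatEnd q₁ q₂ (2 : Module.End R₁ Λ₁) (2 : Module.End R₂ Λ₂) := by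
  have h := CompatEnd.natCast (q₁ := q₁) (q₂ := q₂) (R₁ := R₁) (R₂ := R₂) 2
  rwa [Nat.cast_ofNat, Nat.cast_ofNat] at h

theorem CompatEnd.of_lucas {a₁ d₁ : Module.End R₁ Λ₁} {a₂ d₂ : Module.End R₂ Λ₂}
    (ha : CompatEnd q₁ q₂ a₁ a₂) (hd : CompatEnd q₁ q₂ d₁ d₂) (j : ℕ) :
    CompatEnd q₁ q₂ (lucas a₁ d₁ j) (lucas a₂ d₂ j) := by
  have key : ∀ j, CompatEnd q₁ q₂ (lucas a₁ d₁ j) (lucas a₂ d₂ j) ∧
      CompatEnd q₁ q₂ (lucas a₁ d₁ (j + 1)) (lucas a₂ d₂ (j + 1)) := by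
    intro j
    induction j with
    | zero =>
      refine ⟨?_, ?_⟩
      · rw [lucas_zero, lucas_zero]
        exact CompatEnd.ofNat_two
      · rw [zero_add, lucas_one, lucas_one]
        exact ha
    | succ j ih =>
      refine ⟨ih.2, ?_⟩
      rw [lucas_add_two, lucas_add_two]
      exact (ha.mul ih.2).sub (hd.mul ih.1)
  exact (key j).1

/-- an endomorphism that is small for `I₁` is compatible with an endomorphism that is small for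
`I₂`, as soon as `q₁`, `q₂` kill `I₁ Λ₁`, `I₂ Λ₂` -/
theorem CompatEnd.of_small {I₁ : Ideal R₁} {I₂ : Ideal R₂}
    (hq₁ : ∀ y ∈ I₁ • (⊤ : Submodule R₁ Λ₁), q₁ y = 0)
    (hq₂ : ∀ y ∈ I₂ • (⊤ : Submodule R₂ Λ₂), q₂ y = 0)
    {f₁ : Module.End R₁ Λ₁} {f₂ : Module.End R₂ Λ₂} (hf₁ : f₁ ∈ smallEnd (V := Λ₁) I₁)
    (hf₂ : f₂ ∈ smallEnd (V := Λ₂) I₂) : CompatEnd q₁ q₂ f₁ f₂ := fun x₁ x₂ _ => by
  rw [hq₁ _ (hf₁ x₁), hq₂ _ (hf₂ x₂)]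

end compat

/-! ### The joint trace compatibility -/

section main

variable {R₁ : Type*} [CommRing R₁] {Λ₁ : Type*} [AddCommGroup Λ₁] [Module R₁ Λ₁]
  {Sg₁ : Finset ℕ} {I₁ : Ideal R₁} {r₁ : GQ →* Module.End R₁ Λ₁} {ε₁ : GQ →* R₁}
  {T₁ : Subalgebra R₁ (Module.End R₁ Λ₁)}
  {R₂ : Type*} [CommRing R₂] {Λ₂ : Type*} [AddCommGroup Λ₂] [Module R₂ Λ₂]
  {Sg₂ : Finset ℕ} {I₂ : Ideal R₂} {r₂ : GQ →* Module.End R₂ Λ₂} {ε₂ : GQ →* R₂}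
  {T₂ : Subalgebra R₂ (Module.End R₂ Λ₂)}
  {Nb : Type*} [AddCommGroup Nb] {q₁ : Λ₁ →+ Nb} {q₂ : Λ₂ →+ Nb}

/-- **THE JOINT TRACE COMPATIBILITY**: if the traces of the Frobenius elements are compatible with
the two reductions, so are the traces of all the elements of the Galois group. -/
theorem compat_tr (h₁ : Dens.Datum Sg₁ I₁ r₁ ε₁ T₁) (h₂ : Dens.Datum Sg₂ I₂ r₂ ε₂ T₂)
    (hq₁ : ∀ y ∈ I₁ • (⊤ : Submodule R₁ Λ₁), q₁ y = 0)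
    (hq₂ : ∀ y ∈ I₂ • (⊤ : Submodule R₂ Λ₂), q₂ y = 0)
    (hfrob : ∀ ℓ : ℕ, ℓ.Prime → ℓ ∉ Sg₁ → ℓ ∉ Sg₂ → ∀ A : ValuationSubring Qbar,
      A.LiesOverPrime ℓ → ∀ τ : GQ, A.IsFrobeniusAt τ ℓ →
        CompatEnd q₁ q₂ (Dens.tr r₁ ε₁ τ) (Dens.tr r₂ ε₂ τ))
    (g : GQ) : CompatEnd q₁ q₂ (Dens.tr r₁ ε₁ g) (Dens.tr r₂ ε₂ g) := by
  obtain ⟨ℓ, A, τ, j, hℓ, hℓS₁, hℓS₂, hA, hτ, ha₁, ha₂⟩ :=
    exists_joint_approx_frob h₁ h₂ g 1 1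
  rw [pow_one] at ha₁ ha₂
  have hB := (hfrob ℓ hℓ hℓS₁ hℓS₂ A hA τ hτ).of_lucas (CompatEnd.natCast ℓ) j
  have hs := CompatEnd.of_small hq₁ hq₂ ha₁ ha₂
  have h := hs.add hB
  rwa [sub_add_cancel, sub_add_cancel] at h

/-- the same for the elements `Dens.tT` of the two Hecke algebras, acting on `Λ₁`, `Λ₂` -/
theorem compat_tT (h₁ : Dens.Datum Sg₁ I₁ r₁ ε₁ T₁) (h₂ : Dens.Datum Sg₂ I₂ r₂ ε₂ T₂)
    (hq₁ : ∀ y ∈ I₁ • (⊤ : Submodule R₁ Λ₁), q₁ y = 0)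
    (hq₂ : ∀ y ∈ I₂ • (⊤ : Submodule R₂ Λ₂), q₂ y = 0)
    (hfrob : ∀ ℓ : ℕ, ℓ.Prime → ℓ ∉ Sg₁ → ℓ ∉ Sg₂ → ∀ A : ValuationSubring Qbar,
      A.LiesOverPrime ℓ → ∀ τ : GQ, A.IsFrobeniusAt τ ℓ →
        CompatEnd q₁ q₂ (Dens.tr r₁ ε₁ τ) (Dens.tr r₂ ε₂ τ))
    (g : GQ) (x₁ : Λ₁) (x₂ : Λ₂) (hx : q₁ x₁ = q₂ x₂) :
    q₁ (Dens.tT h₁ g • x₁) = q₂ (Dens.tT h₂ g • x₂) :=
  compat_tr h₁ h₂ hq₁ hq₂ hfrob g x₁ x₂ hx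

end main

end Fermat.Agent.S43.Rho.Props.Joint

end
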